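import Fermat.Agent.Moduli.TwoField

/-!
# The level three family inside a level field with deep two-power level

`Moduli.exists_hesseData` with the constant `ζ ^ 2` replaced by `ζ ^ q`.
-/

set_option autoImplicit false
set_option linter.style.haveILetI false
set_option linter.unusedSectionVars false

noncomputable section

namespace Fermat.Agent.Carayol

open Polynomial IsLocalRing WeierstrassCurve Fermat.Agent.EC Fermat.Agent.Moduli
open Fermat.Agent.GalRep Fermat.Agent.ModField
open Fermat.Agent.GalRep.Model (Lev NZ)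

variable {W : Type} [CommRing W] [IsDomain W] [IsDiscreteValuationRing W] {O : Type} [CommRing O]
  [IsDomain O] [Algebra W O] {M : ℕ} [NeZero M] (E : Emb O M)

set_option maxHeartbeats 800000 in
/-- The family inside the level field; a half swap fixes the parameter and the torsion of order
prime to two and exchanges the two chosen parameters of points of order two. -/
theorem exists_hesseData_pow [Algebra W (Fld E)] [IsScalarTower W O (Fld E)] (L : Lev M) (hLm : L.m = 2)
    (hWO : Function.Injective (algebraMap W O)) (hgen : Algebra.adjoin W {E.ζ} = ⊤)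
    {q : ℕ} (hζ : ∃ c : W, algebraMap W O c = E.ζ ^ q) (hMq : ¬ M ∣ 2 * q) (h3 : 3 ∣ M) :
    ∃ t : Fld E, jF E * (t ^ 3 - 1) ^ 3 = 27 * t ^ 3 * (t ^ 3 + 8) ^ 3 ∧
      ∃ H : HesseData (W := W) E t, ∀ σ : Fld E ≃+* Fld E, IsHalfSwap E L σ →
        σ t = t ∧ σ H.z₁ = H.z₂ ∧ σ H.z₂ = H.z₁ ∧
          ∀ (a b : Fld E) (h : (hesseCurve (algebraMap (Fld E) H.Ω t)).toAffine.Nonsingular
            (algebraMap (Fld E) H.Ω a) (algebraMap (Fld E) H.Ω b)),
            L.e • Affine.Point.some _ _ h = 0 → σ a = a ∧ σ b = b := by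
  classical
  have hM0 : 0 < M := NeZero.pos M
  obtain ⟨e₃, he₃⟩ := h3
  -- the Legendre bridge
  set f := baseHom E L hLm hWO
  have hfinj : Function.Injective f := baseHom_injective E L hLm hWO
  set R := LegBase W
  letI : Algebra R (Fld E) := f.toAlgebra
  let g : FractionRing R →+* Fld E := IsFractionRing.lift (A := R) (K := FractionRing R) hfinj
  letI : Algebra (FractionRing R) (Fld E) := g.toAlgebra
  haveI : IsScalarTower R (FractionRing R) (Fld E) :=
    IsScalarTower.of_algebraMap_eq fun r => (IsFractionRing.lift_algebraMap hfinj r).symm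
  obtain ⟨hlu, hl1u⟩ := isUnit_legVar (W := W)
  obtain ⟨Br⟩ := nonempty_absBridge E L hLm (K₀ := FractionRing R) (l := legVar W) hgen hζ hMq hlu
    hl1u (baseHom_legVar E L hLm hWO) (by
      rintro _ ⟨w, rfl⟩
      refine ⟨algebraMap R (FractionRing R) (algebraMap W[X] R (C w)), ?_⟩
      rw [← IsScalarTower.algebraMap_apply R (FractionRing R) (Fld E)]
      exact baseHom_C E L hLm hWO w)
  letI : Algebra (Fld E) Br.Ω := Br.ι.toRingHom.toAlgebra
  haveI : IsScalarTower (FractionRing R) (Fld E) Br.Ω :=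
    IsScalarTower.of_algebraMap_eq fun x => (Br.ι.commutes x).symm
  haveI : Algebra.IsAlgebraic (Fld E) Br.Ω := Algebra.IsAlgebraic.tower_top (K := FractionRing R) _
  set am := algebraMap (Fld E) Br.Ω
  have hl : algebraMap R Br.Ω (legVar W) = am (lamF E L) := by
    show _ = Br.ι (lamF E L)
    rw [← baseHom_legVar E L hLm hWO, show baseHom E L hLm hWO (legVar W) =
      algebraMap R (Fld E) (legVar W) from rfl,
      IsScalarTower.algebraMap_apply R (FractionRing R) (Fld E), AlgHom.commutes,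
      ← IsScalarTower.algebraMap_apply]
  set l : Br.Ω := algebraMap R Br.Ω (legVar W)
  haveI : (legendreΩ Br.Ω (legVar W)).IsElliptic := legendreΩ_isElliptic hlu hl1u
  haveI : (legendre l).IsElliptic := legendreΩ_isElliptic (Ω := Br.Ω) hlu hl1u
  -- the two points of order three
  have hMe : (M : ℤ) = 3 * (e₃ : ℤ) := by exact_mod_cast he₃
  have he3 : 0 < e₃ := Nat.pos_of_ne_zero fun h => by rw [h, mul_zero] at he₃; omega
  have hnz : ∀ a b : ℤ, ¬ ((3 : ℤ) ∣ a ∧ (3 : ℤ) ∣ b) → NZ M ((e₃ : ℤ) * a, (e₃ : ℤ) * b) := by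
    intro a b h hd
    rw [hMe, mul_comm (3 : ℤ), mul_dvd_mul_iff_left (by exact_mod_cast he3.ne'),
      mul_dvd_mul_iff_left (by exact_mod_cast he3.ne')] at hd
    exact h hd
  have hord : ∀ a b : ℤ, 3 • Br.P ((e₃ : ℤ) * a, (e₃ : ℤ) * b) = 0 := fun a b => by
    rw [← map_nsmul, Br.P_eq_zero, NZ, not_not, hMe]
    simp only [Prod.smul_mk, nsmul_eq_mul, Nat.cast_ofNat]
    exact ⟨⟨a, by ring⟩, ⟨b, by ring⟩⟩
  set u₀ : ℤ × ℤ := ((e₃ : ℤ) * 1, (e₃ : ℤ) * 0)
  set u₁ : ℤ × ℤ := ((e₃ : ℤ) * 0, (e₃ : ℤ) * 1)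
  have hu₀ : NZ M u₀ := hnz 1 0 (by omega)
  have hu₁ : NZ M u₁ := hnz 0 1 (by omega)
  obtain ⟨y₀, h₀, hP₀⟩ := Br.P_abs u₀ hu₀
  obtain ⟨y₁, h₁, hP₁⟩ := Br.P_abs u₁ hu₁
  set a₀ := absF E L u₀ hu₀
  set a₁ := absF E L u₁ hu₁
  obtain ⟨hy₀, s, hd₀, hf₀⟩ := flex_of_order_three (l := l) h₀ (hP₀ ▸ hord 1 0)
  obtain ⟨hy₁, s₁, hd₁, hf₁⟩ := flex_of_order_three (l := l) h₁ (hP₁ ▸ hord 0 1)
  have hpm : ∀ u v : ℤ × ℤ, ∀ hu : NZ M u, ∀ hv : NZ M v, NZ M (u - v) → NZ M (u + v) →
      Br.ι (absF E L u hu) ≠ Br.ι (absF E L v hv) := by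
    intro u v hu hv hm hp heq
    obtain ⟨y, h, e⟩ := Br.P_abs u hu
    obtain ⟨y', h', e'⟩ := Br.P_abs v hv
    rcases Affine.Y_eq_of_X_eq h.1 h'.1 heq with hy | hy
    · refine ((Br.P_eq_zero (u - v)).1 ?_) hm
      rw [map_sub, e, e', sub_eq_zero, Affine.Point.some.injEq]
      exact ⟨heq, hy⟩
    · refine ((Br.P_eq_zero (u + v)).1 ?_) hp
      rw [map_add, e, e', Affine.Point.add_of_Y_eq heq hy]
  have hX : Br.ι a₁ ≠ Br.ι a₀ := by
    refine hpm _ _ hu₁ hu₀ ?_ ?_
    · have e : u₁ - u₀ = ((e₃ : ℤ) * (-1), (e₃ : ℤ) * 1) := by simp [u₀, u₁]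
      rw [e]; exact hnz _ _ (by omega)
    · have e : u₁ + u₀ = ((e₃ : ℤ) * 1, (e₃ : ℤ) * 1) := by simp [u₀, u₁]
      rw [e]; exact hnz _ _ (by omega)
  set X := Br.ι a₁ - Br.ι a₀ with hXdef
  have hX0 : X ≠ 0 := sub_ne_zero.2 hX
  have he₀ : y₀ ^ 2 = (Br.ι a₀) ^ 3 - (1 + l) * (Br.ι a₀) ^ 2 + l * Br.ι a₀ := equation_legendre h₀.1
  have he₁ : y₁ ^ 2 = (Br.ι a₁) ^ 3 - (1 + l) * (Br.ι a₁) ^ 2 + l * Br.ι a₁ := equation_legendre h₁.1
  have hψ := second_three hX he₀ hd₀ hf₀ he₁ hd₁ hf₁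
  rw [← hXdef] at hψ
  -- the tangent model
  let C₁ : VariableChange Br.Ω := ⟨1, Br.ι a₀, s, y₀⟩
  have hΔ₁ : (2 * s) ^ 3 - 27 * (2 * y₀) ≠ 0 := by
    have e : C₁ • legendre l = ⟨2 * s, 0, 2 * y₀, 0, 0⟩ := by
      ext <;> simp only [C₁, variableChange_a₁, variableChange_a₂, variableChange_a₃,
        variableChange_a₄, variableChange_a₆, legendre, inv_one, Units.val_one, one_pow, one_mul]
      · ring
      · linear_combination -hf₀
      · ring
      · linear_combination -hd₀
      · linear_combination -he₀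
    intro h0
    have hu := (C₁ • legendre l).isUnit_Δ
    rw [e] at hu
    refine hu.ne_zero ?_
    simp only [WeierstrassCurve.Δ, WeierstrassCurve.b₂, WeierstrassCurve.b₄, WeierstrassCurve.b₆,
      WeierstrassCurve.b₈]
    linear_combination (2 * y₀) ^ 3 * h0
  set U := 2 * (s * X + 3 * y₀) / (3 * X) with hUdef
  have hU3 : U ^ 3 = 8 * s ^ 3 / 27 - 2 * y₀ := by
    rw [hUdef]
    field_simp
    linear_combination 486 * y₀ * hψ
  have hU : U ≠ 0 := fun h => hΔ₁ (by
    rw [h] at hU3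
    linear_combination (-27 : Br.Ω) * hU3)
  set T := 2 * s / (3 * U) with hTdef
  have hA : T ^ 3 - 1 = 2 * y₀ / U ^ 3 := by
    rw [hTdef]
    field_simp
    linear_combination (-27 : Br.Ω) * hU3
  let C₂ : VariableChange Br.Ω := ⟨Units.mk0 U hU, Br.ι a₀, s, y₀⟩
  have hC : C₂ • legendre l = hesseCurve T := by
    ext <;> simp only [C₂, variableChange_a₁, variableChange_a₂, variableChange_a₃,
      variableChange_a₄, variableChange_a₆, legendre, hesseCurve, Units.val_inv_eq_inv_val,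
      Units.val_mk0, hA]
    · rw [hTdef]; field_simp; ring
    · field_simp; linear_combination -hf₀
    · field_simp; ring
    · field_simp; linear_combination -hd₀
    · field_simp; linear_combination -he₀
  -- `t` in the level field
  set lam := lamF E L
  set d := 3 * a₀ ^ 2 - 2 * (1 + lam) * a₀ + lam
  set fv := a₀ ^ 3 - (1 + lam) * a₀ ^ 2 + lam * a₀
  set D := a₁ - a₀
  have hι : ∀ x, am x = Br.ι x := fun x => rfl
  have hd : am d = 2 * s * y₀ := by
    rw [hd₀]; simp only [d, map_add, map_sub, map_mul, map_pow, map_one, map_ofNat, hl, hι]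
  have hfv : am fv = y₀ ^ 2 := by
    rw [he₀]; simp only [fv, map_add, map_sub, map_mul, map_pow, map_one, hl, hι]
  have hD : am D = X := by simp [D, hXdef, hι]
  have hsX : s * X + 3 * y₀ ≠ 0 := fun h => hU (by rw [hUdef, h, mul_zero, zero_div])
  set t := d * D / (d * D + 6 * fv) with htdef
  have hMe2 : (M : ℤ) = (L.e : ℤ) * 2 := by
    have := L.eq
    rw [hLm] at this
    exact_mod_cast this
  have he₃2 : (2 : ℤ) ∣ (e₃ : ℤ) := by omega
  have hu₀2 : (2 : ℤ) ∣ u₀.1 ∧ (2 : ℤ) ∣ u₀.2 := ⟨he₃2.mul_right _, he₃2.mul_right _⟩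
  have hu₁2 : (2 : ℤ) ∣ u₁.1 ∧ (2 : ℤ) ∣ u₁.2 := ⟨he₃2.mul_right _, he₃2.mul_right _⟩
  have hσ : ∀ σ : Fld E ≃+* Fld E, IsHalfSwap E L σ → σ lam = 1 - lam ∧ σ a₀ = 1 - a₀ ∧
      σ a₁ = 1 - a₁ ∧ σ d = d ∧ σ fv = -fv ∧ σ D = -D := by
    rintro σ ⟨h1, h2⟩
    have h0 : σ a₀ = 1 - a₀ := h2 u₀ hu₀ hu₀2.1 hu₀2.2
    have h1' : σ a₁ = 1 - a₁ := h2 u₁ hu₁ hu₁2.1 hu₁2.2
    refine ⟨h1, h0, h1', ?_, ?_, ?_⟩
    · simp only [d, map_add, map_sub, map_mul, map_pow, map_one, map_ofNat, h0, lam, h1]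
      ring
    · simp only [fv, map_add, map_sub, map_mul, map_pow, map_one, h0, lam, h1]
      ring
    · simp only [D, map_sub, h0, h1']
      ring
  have hσt : ∀ σ : Fld E ≃+* Fld E, IsHalfSwap E L σ → σ t = t := by
    intro σ hh
    obtain ⟨-, -, -, hσd, hσf, hσD⟩ := hσ σ hh
    calc σ t = σ (d * D) / σ (d * D + 6 * fv) := map_div₀ σ _ _
      _ = d * -D / -(d * D + 6 * fv) := by
        rw [map_add, map_mul, map_mul, map_ofNat, hσd, hσf, hσD]
        congr 1
        ring
      _ = t := by rw [mul_neg, neg_div_neg_eq]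
  have hden : (2 * s * y₀) * X + 6 * y₀ ^ 2 ≠ 0 := by
    have : (2 * s * y₀) * X + 6 * y₀ ^ 2 = 2 * y₀ * (s * X + 3 * y₀) := by ring
    rw [this]
    exact mul_ne_zero (mul_ne_zero two_ne_zero hy₀) hsX
  have hT' : T = s * X / (s * X + 3 * y₀) := by
    rw [hTdef, hUdef]
    field_simp
  have ht : am t = T := by
    rw [htdef, map_div₀, map_add, map_mul, map_mul, map_ofNat, hd, hD, hfv, hT',
      div_eq_div_iff hden hsX]
    ring
  have hT0 : T ^ 3 - 1 ≠ 0 := by
    rw [hA]; exact div_ne_zero (mul_ne_zero two_ne_zero hy₀) (pow_ne_zero 3 hU)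
  refine ⟨t, ?_, ?_⟩
  · -- the invariant
    obtain ⟨hl0, hl1⟩ := lamF_ne E hLm
    have hc4 : (C₂ • legendre l).c₄ = (hesseCurve T).c₄ := by rw [hC]
    have hΔ : (C₂ • legendre l).Δ = (hesseCurve T).Δ := by rw [hC]
    rw [variableChange_c₄] at hc4
    rw [variableChange_Δ, hesseCurve_Δ, legendre_Δ] at hΔ
    simp only [C₂, Units.val_inv_eq_inv_val, Units.val_mk0, legendre, hesseCurve,
      WeierstrassCurve.c₄, WeierstrassCurve.b₂, WeierstrassCurve.b₄] at hc4 hΔ
    have e : jF E * (lam ^ 2 * (lam - 1) ^ 2) = 256 * (lam ^ 2 - lam + 1) ^ 3 := jF_mul_lamF E hLm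
    have key : (jF E * (t ^ 3 - 1) ^ 3 - 27 * t ^ 3 * (t ^ 3 + 8) ^ 3) *
        (lam ^ 2 * (lam - 1) ^ 2) = 0 := by
      apply am.injective
      have e' := congrArg am e
      simp only [map_mul, map_pow, map_sub, map_add, map_one, map_zero, map_ofNat, ← hl, ht] at e' ⊢
      have hU' : (U⁻¹) ^ 12 ≠ 0 := pow_ne_zero _ (inv_ne_zero hU)
      have hc : (U⁻¹) ^ 4 * (16 * (l ^ 2 - l + 1)) = 9 * T * (T ^ 3 + 8) := by
        linear_combination hc4
      have hDl : (U⁻¹) ^ 12 * (16 * (l * (1 - l)) ^ 2) = 27 * (T ^ 3 - 1) ^ 3 := by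
        linear_combination hΔ
      have hc' := congrArg (· ^ 3) hc
      apply mul_left_cancel₀ (mul_ne_zero (by norm_num : (432 : Br.Ω) ≠ 0) hU')
      linear_combination (432 * (U⁻¹) ^ 12 * (T ^ 3 - 1) ^ 3) * e' -
        (T ^ 3 + 8) ^ 3 * T ^ 3 * 729 * hDl + 27 * (T ^ 3 - 1) ^ 3 * hc'
    exact sub_eq_zero.1 ((mul_eq_zero.1 key).resolve_right (mul_ne_zero (pow_ne_zero _ hl0)
      (pow_ne_zero _ (by intro h; exact hl1 (by linear_combination -h)))))
  · -- the coordinates
    have hs2 : am (3 * a₀ - (1 + lam)) = s ^ 2 := by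
      rw [hf₀]; simp only [map_sub, map_mul, map_add, map_one, map_ofNat, hl, hι]
    have hU2 : am (4 * ((3 * a₀ - (1 + lam)) * D ^ 2 + 3 * d * D + 9 * fv) / (9 * D ^ 2)) = U ^ 2 := by
      rw [map_div₀, map_mul, map_mul, map_add, map_add, map_mul, map_mul, map_mul, map_mul, map_pow,
        map_ofNat, map_ofNat, map_ofNat, hs2, hd, hD, hfv, hUdef]
      field_simp
      ring
    have hU3y : am ((4 * (3 * a₀ - (1 + lam)) * d - 54 * fv) / 27) = U ^ 3 * y₀ := by
      rw [map_div₀, map_sub, map_mul, map_mul, map_mul, map_ofNat, map_ofNat, map_ofNat, hs2, hd,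
        hfv, hU3]
      field_simp
      ring
    have hσU : ∀ σ : Fld E ≃+* Fld E, IsHalfSwap E L σ →
        σ (4 * ((3 * a₀ - (1 + lam)) * D ^ 2 + 3 * d * D + 9 * fv) / (9 * D ^ 2)) =
          -(4 * ((3 * a₀ - (1 + lam)) * D ^ 2 + 3 * d * D + 9 * fv) / (9 * D ^ 2)) ∧
        σ ((4 * (3 * a₀ - (1 + lam)) * d - 54 * fv) / 27) =
          -((4 * (3 * a₀ - (1 + lam)) * d - 54 * fv) / 27) := by
      intro σ h
      obtain ⟨hlam, h0, h1, hd', hfv', hD'⟩ := hσ σ h
      constructor <;>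
      · rw [← neg_div, map_div₀]
        simp only [map_add, map_sub, map_mul, map_pow, map_one, map_ofNat, hlam, h0, hd', hfv', hD']
        congr 1 <;> ring
    obtain ⟨G₂, hG₂⟩ : ∃ G₂ : Fld E, G₂ =
        (4 * ((3 * a₀ - (1 + lam)) * D ^ 2 + 3 * d * D + 9 * fv) / (9 * D ^ 2)) := ⟨_, rfl⟩
    obtain ⟨G₃, hG₃⟩ : ∃ G₃ : Fld E, G₃ = ((4 * (3 * a₀ - (1 + lam)) * d - 54 * fv) / 27) := ⟨_, rfl⟩
    rw [← hG₂] at hU2 hσU
    rw [← hG₃] at hU3y hσU
    -- the image of a Legendre torsion point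
    have himg : ∀ (x y : Br.Ω) (h : (legendre l).toAffine.Nonsingular x y),
        M • Affine.Point.some x y h = 0 → ∃ a b : Fld E, am a = vcX C₂ x ∧ am b = vcY C₂ x y ∧
          (L.e • Affine.Point.some x y h = 0 → ∀ σ : Fld E ≃+* Fld E, IsHalfSwap E L σ →
            σ a = a ∧ σ b = b) := by
      intro x y h hT
      obtain ⟨u, hu⟩ := Br.P_surj _ hT
      have hunz : NZ M u := by
        by_contra h0
        rw [← Br.P_eq_zero, hu] at h0
        exact Affine.Point.some_ne_zero _ h0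
      obtain ⟨y', h', e'⟩ := Br.P_abs u hunz
      rw [hu, Affine.Point.some.injEq] at e'
      obtain ⟨rfl, -⟩ := e'
      set au := absF E L u hunz
      obtain ⟨b₀, hb₀, hb₀σ⟩ : ∃ b₀ : Fld E, am b₀ = y * y₀ ∧ ((2 : ℤ) ∣ u.1 → (2 : ℤ) ∣ u.2 →
          ∀ σ : Fld E ≃+* Fld E, IsHalfSwap E L σ → σ b₀ = -b₀) := by
        by_cases hx : Br.ι au = Br.ι a₀
        · rcases Affine.Y_eq_of_X_eq h.1 h₀.1 hx with hy | hy
          · exact ⟨fv, by rw [hfv, hy, sq], fun _ _ σ h => (hσ σ h).2.2.2.2.1⟩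
          · refine ⟨-fv, ?_, fun _ _ σ h => by rw [map_neg, (hσ σ h).2.2.2.2.1]⟩
            rw [map_neg, hfv, hy, negY_legendre]
            ring
        · have hnp : NZ M (u + u₀) := by
            by_contra h0
            rw [← Br.P_eq_zero, map_add, hu, hP₀, ← eq_neg_iff_add_eq_zero, Affine.Point.neg_some,
              Affine.Point.some.injEq] at h0
            exact hx h0.1
          have hnm : NZ M (u - u₀) := by
            by_contra h0
            rw [← Br.P_eq_zero, map_sub, hu, hP₀, sub_eq_zero, Affine.Point.some.injEq] at h0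
            exact hx h0.1
          obtain ⟨yp, hp, ep⟩ := Br.P_abs _ hnp
          obtain ⟨ym, hm, em⟩ := Br.P_abs _ hnm
          rw [map_add, hu, hP₀, Affine.Point.add_some (fun h => hx h.1),
            Affine.Point.some.injEq] at ep
          rw [map_sub, hu, hP₀, sub_eq_add_neg, Affine.Point.neg_some,
            Affine.Point.add_some (fun h => hx h.1), Affine.Point.some.injEq] at em
          refine ⟨(au - a₀) ^ 2 * (absF E L _ hnm - absF E L _ hnp) / 4, ?_, fun hu1 hu2 σ h => ?_⟩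
          swap
          · obtain ⟨-, hσ0, -, -, -, -⟩ := hσ σ h
            have hm := h.2 _ hnm (dvd_sub hu1 hu₀2.1) (dvd_sub hu2 hu₀2.2)
            have hp := h.2 _ hnp (dvd_add hu1 hu₀2.1) (dvd_add hu2 hu₀2.2)
            rw [map_div₀, map_mul, map_pow, map_sub, map_sub, map_ofNat, hm, hp, hσ0,
              show σ au = 1 - au from h.2 u hunz hu1 hu2]
            ring
          rw [map_div₀, map_mul, map_pow, map_sub, map_sub, map_ofNat, hι, hι, hι, hι, ← em.1,
            ← ep.1, eq_comm, eq_div_iff (by norm_num : (4 : Br.Ω) ≠ 0)]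
          linear_combination addX_sub_addX (l := l) (y := y) (y₀ := y₀) hx
      refine ⟨(au - a₀) / G₂,
        (b₀ - (d / 2) * (au - a₀) - fv) / G₃, ?_, ?_,
        fun he σ hh => ?_⟩
      rotate_right
      · have h2u : (2 : ℤ) ∣ u.1 ∧ (2 : ℤ) ∣ u.2 := by
          rw [← hu, ← map_nsmul, Br.P_eq_zero, NZ, not_not] at he
          simp only [Prod.smul_fst, Prod.smul_snd, nsmul_eq_mul, hMe2] at he
          exact ⟨(mul_dvd_mul_iff_left (by exact_mod_cast L.e_pos.ne')).1 he.1,
            (mul_dvd_mul_iff_left (by exact_mod_cast L.e_pos.ne')).1 he.2⟩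
        obtain ⟨-, hσ0, -, hσd, hσf, -⟩ := hσ σ hh
        obtain ⟨hσ2, hσ3⟩ := hσU σ hh
        have hau : σ au = 1 - au := hh.2 u hunz h2u.1 h2u.2
        constructor
        · rw [map_div₀, hσ2, map_sub, hau, hσ0, div_neg, ← neg_div]
          congr 1
          ring
        · rw [map_div₀, hσ3, map_sub, map_sub, map_mul, map_div₀, map_sub, map_ofNat, hau, hσ0, hσd,
            hσf, hb₀σ h2u.1 h2u.2 σ hh, div_neg, ← neg_div]
          congr 1
          ring
      · rw [map_div₀, hU2, map_sub]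
        rfl
      · rw [map_div₀, hU3y, map_sub, map_sub, map_mul, map_div₀, map_sub, hb₀, hfv, hd,
          map_ofNat]
        simp only [vcY, C₂, Units.val_mk0, hι, au]
        field_simp
    haveI hell : (C₂ • legendre l).IsElliptic := inferInstance
    -- every torsion point of the family is such an image
    have hpre : ∀ (x' y' : Br.Ω) (h : (hesseCurve T).toAffine.Nonsingular x' y') (k : ℕ),
        k • Affine.Point.some x' y' h = 0 → ∃ (x y : Br.Ω) (h : (legendre l).toAffine.Nonsingular x y),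
          k • Affine.Point.some x y h = 0 ∧ vcX C₂ x = x' ∧ vcY C₂ x y = y' := by
      intro x' y' h' k hT'
      obtain ⟨y, hy⟩ := exists_point (W := legendre l) (φ := RingHom.id Br.Ω) (U ^ 2 * x' + Br.ι a₀)
      rw [WeierstrassCurve.map_id] at hy
      have hxv : vcX C₂ (U ^ 2 * x' + Br.ι a₀) = x' := by
        simp only [vcX, C₂, Units.val_mk0]
        field_simp
        ring
      have h2 := vc_nonsingular C₂ hy
      have back : ∀ (y : Br.Ω) (hy : (legendre l).toAffine.Nonsingular (U ^ 2 * x' + Br.ι a₀) y),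
          vcY C₂ (U ^ 2 * x' + Br.ι a₀) y = y' → k • Affine.Point.some _ _ hy = 0 := by
        intro y hy e
        apply vcHom_injective C₂
        rw [map_nsmul, map_zero, vcHom_some]
        have cast : ∀ (V : WeierstrassCurve Br.Ω) (_ : V = hesseCurve T) (a b : Br.Ω)
            (hab : V.toAffine.Nonsingular a b), a = x' → b = y' →
            k • Affine.Point.some a b hab = 0 := by
          rintro V rfl a b hab rfl rfl
          exact hT'
        exact cast _ hC _ _ _ hxv e
      rcases Affine.Y_eq_of_X_eq (W := (hesseCurve T).toAffine) h'.1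
        (hC ▸ h2 : (hesseCurve T).toAffine.Nonsingular _ _).1 hxv.symm with e | e
      · exact ⟨_, y, hy, back y hy e.symm, hxv, e.symm⟩
      · rw [← hC, vc_negY] at e
        exact ⟨_, _, (Affine.nonsingular_neg ..).2 hy, back _ _ e.symm, hxv, e.symm⟩
    have cast' : ∀ {V : WeierstrassCurve Br.Ω} (_ : V = hesseCurve T) {a b : Br.Ω}
        (hab : V.toAffine.Nonsingular a b), M • Affine.Point.some a b hab = 0 →
        ∃ h : (hesseCurve T).toAffine.Nonsingular a b, M • Affine.Point.some a b h = 0 := by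
      rintro V rfl a b hab h
      exact ⟨hab, h⟩
    have h2M : (2 : ℕ) ∣ M := ⟨L.e, by rw [mul_comm, ← hLm]; exact L.eq⟩
    -- the points of order two
    have htwo : ∀ r : Br.Ω, r = 0 ∨ r = 1 ∨ r = l →
        ∃ h : (legendre l).toAffine.Nonsingular r 0, 2 • Affine.Point.some r 0 h = 0 := by
      intro r hr
      have he : (legendre l).toAffine.Equation r 0 := by
        rw [Affine.equation_iff]
        rcases hr with rfl | rfl | rfl <;> simp [legendre] <;> ring
      refine ⟨Affine.equation_iff_nonsingular.1 he, ?_⟩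
      rw [two_nsmul]
      exact Affine.Point.add_self_of_Y_eq (by rw [negY_legendre, neg_zero])
    obtain ⟨h00, t00⟩ := htwo 0 (Or.inl rfl)
    obtain ⟨h10, t10⟩ := htwo 1 (Or.inr (Or.inl rfl))
    have hMt : ∀ {r : Br.Ω} {h : (legendre l).toAffine.Nonsingular r 0},
        2 • Affine.Point.some r 0 h = 0 → M • Affine.Point.some r 0 h = 0 := fun {r h} e => by
      obtain ⟨e2, he2⟩ := h2M
      have h' : M • Affine.Point.some r 0 h = e2 • (2 • Affine.Point.some r 0 h) := by
        rw [← mul_nsmul]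
        exact congrArg (· • Affine.Point.some r 0 h) he2
      rw [h', e, nsmul_zero]
    have hvc : ∀ {x y : Br.Ω} (h : (legendre l).toAffine.Nonsingular x y) (n : ℕ),
        n • Affine.Point.some x y h = 0 →
        n • Affine.Point.some (vcX C₂ x) (vcY C₂ x y) (vc_nonsingular C₂ h) = 0 := fun h n e => by
      rw [← vcHom_some C₂ h, ← map_nsmul, e, map_zero]
    -- their parameters
    obtain ⟨aX, haX⟩ : ∃ aX : Fld E → Fld E, ∀ r, aX r = (r - a₀) / G₂ := ⟨_, fun r => rfl⟩
    obtain ⟨bY, hbY⟩ : ∃ bY : Fld E → Fld E, ∀ r, bY r = (-((d / 2) * (r - a₀)) - fv) / G₃ :=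
      ⟨_, fun r => rfl⟩
    have hz : ∀ r : Fld E, am r = 0 ∨ am r = 1 ∨ am r = l →
        (t ^ 3 - 1) * (-aX r / bY r) ^ 3 - 3 * t * (-aX r / bY r) + 2 = 0 ∧
          vcX C₂ (am r) = -((am (-aX r / bY r)) ^ 2)⁻¹ := by
      intro r₀ hr
      have hab : am (aX r₀) = vcX C₂ (am r₀) ∧ am (bY r₀) = vcY C₂ (am r₀) 0 := by
        constructor
        · rw [haX]
          rw [map_div₀, hU2, map_sub]
          rfl
        · rw [hbY]
          rw [map_div₀, hU3y, map_sub, map_neg, map_mul, map_div₀, map_sub, hfv, hd, map_ofNat]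
          simp only [vcY, C₂, Units.val_mk0, hι]
          field_simp
          ring
      obtain ⟨hab1, hab2⟩ := hab
      generalize aX r₀ = a at hab1 ⊢
      generalize bY r₀ = b at hab2 ⊢
      generalize am r₀ = r at hr hab1 hab2 ⊢
      obtain ⟨h, e⟩ := htwo r hr
      obtain ⟨h', e'⟩ := cast' hC (vc_nonsingular C₂ h) (hvc h M (hMt e))
      have hneg : vcY C₂ r 0 = (hesseCurve T).toAffine.negY (vcX C₂ r) (vcY C₂ r 0) := by
        rw [← hC, vc_negY, negY_legendre, neg_zero]
      obtain ⟨z, hz0, hroot, hzx, hzy⟩ := two_torsion_param two_ne_zero hT0 h'.1 hneg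
      have ha := hab1
      have hb := hab2
      have hb0 : b ≠ 0 := fun hb0 => by
        rw [hb0, map_zero, hzy] at hb
        exact inv_ne_zero (pow_ne_zero 3 hz0) hb.symm
      have hza : am (-a / b) = z := by
        rw [map_div₀, map_neg, ha, hb, hzx, hzy]
        field_simp
      refine ⟨?_, by rw [hza, hzx]⟩
      apply am.injective
      simpa only [map_add, map_sub, map_mul, map_pow, map_one, map_zero, map_ofNat, ht, hza]
        using hroot
    obtain ⟨hr₁, hx₁⟩ := hz 0 (Or.inl (map_zero am))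
    obtain ⟨hr₂, hx₂⟩ := hz 1 (Or.inr (Or.inl (map_one am)))
    rw [map_zero] at hx₁
    rw [map_one] at hx₂
    set z₁ := -aX 0 / bY 0
    set z₂ := -aX 1 / bY 1
    have hprop : ∀ σ : Fld E ≃+* Fld E, IsHalfSwap E L σ → σ t = t ∧ σ z₁ = z₂ ∧ σ z₂ = z₁ ∧
        ∀ (a b : Fld E) (h : (hesseCurve (am t)).toAffine.Nonsingular (am a) (am b)),
          L.e • Affine.Point.some _ _ h = 0 → σ a = a ∧ σ b = b := by
      intro σ hh
      have hs := hσ σ hh
      have hσ0 := hs.2.1
      have hσd := hs.2.2.2.1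
      have hσf := hs.2.2.2.2.1
      refine ⟨?_, ?_, ?_, ?_⟩
      · exact hσt σ hh
      · -- `0` and `1` are exchanged up to the affine change, which cancels
        have h0 : σ (-aX 0 / bY 0) = -aX 1 / bY 1 := by
          obtain ⟨hσ2, hσ3⟩ := hσU σ hh
          simp only [haX, hbY, map_div₀, map_neg, map_sub, map_zero, map_mul, map_ofNat, hσ0, hσd,
            hσf, hσ2, hσ3]
          ring
        exact h0
      · obtain ⟨hσ2, hσ3⟩ := hσU σ hh
        show σ (-aX 1 / bY 1) = -aX 0 / bY 0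
        simp only [haX, hbY, map_div₀, map_neg, map_sub, map_one, map_mul, map_ofNat, hσ0, hσd, hσf,
          hσ2, hσ3]
        ring
      · intro a b h he
        have key : ∀ (T' : Br.Ω), T' = T → ∀ (h : (hesseCurve T').toAffine.Nonsingular (am a) (am b)),
            L.e • Affine.Point.some _ _ h = 0 → σ a = a ∧ σ b = b := by
          rintro T' rfl h he
          obtain ⟨x, y, hL, hk, hxa, hyb⟩ := hpre _ _ h L.e he
          have hkM : M • Affine.Point.some x y hL = 0 := by
            have hM' : M • Affine.Point.some x y hL = L.m • (L.e • Affine.Point.some x y hL) := by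
              rw [← mul_nsmul]
              exact congrArg (· • Affine.Point.some x y hL) L.eq
            rw [hM', hk, nsmul_zero]
          obtain ⟨a', b', ha', hb', hfix⟩ := himg x y hL hkM
          obtain rfl : a' = a := am.injective (ha'.trans hxa)
          obtain rfl : b' = b := am.injective (hb'.trans hyb)
          exact hfix hk σ hh
        exact key _ ht h he
    refine ⟨{
      Ω := Br.Ω
      disc_ne := fun h => hT0 (by rw [← ht, ← map_one am, ← map_pow, ← map_sub, h, map_zero])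
      coord_mem := ?_
      gen := ?_
      z₁ := z₁
      z₂ := z₂
      z_ne := fun h => zero_ne_one ((vcX_inj C₂).1 (hx₁.trans (h ▸ hx₂.symm)))
      root₁ := hr₁
      root₂ := hr₂ }, hprop⟩
    · rw [show algebraMap (Fld E) Br.Ω t = T from ht]
      intro x' y' h' hT'
      obtain ⟨x, y, h, hT, rfl, rfl⟩ := hpre x' y' h' M hT'
      obtain ⟨a, b, ha, hb, -⟩ := himg x y h hT
      exact ⟨a, b, ha, hb⟩
    · rw [show algebraMap (Fld E) Br.Ω t = T from ht]
      intro S hSW hS
      rw [← closure_absF_base_eq_top E hLm hgen hζ hMq, Subfield.closure_le]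
      have himgS : ∀ (x y : Br.Ω) (h : (legendre l).toAffine.Nonsingular x y),
          M • Affine.Point.some x y h = 0 → ∃ a ∈ S, am a = vcX C₂ x := by
        intro x y h hT
        obtain ⟨a, b, ha, hb, -⟩ := himg x y h hT
        obtain ⟨h', e'⟩ := cast' hC (vc_nonsingular C₂ h) (hvc h M hT)
        have hn : (hesseCurve T).toAffine.Nonsingular (am a) (am b) := by rw [ha, hb]; exact h'
        have cast'' : ∀ {p q : Br.Ω} (hp : (hesseCurve T).toAffine.Nonsingular p q),
            p = vcX C₂ x → q = vcY C₂ x y → M • Affine.Point.some p q hp = 0 := by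
          rintro p q hp rfl rfl
          exact e'
        exact ⟨a, hS a b hn (cast'' hn ha hb), ha⟩
      obtain ⟨c0, hc0S, hc0⟩ := himgS 0 0 h00 (hMt t00)
      obtain ⟨c1, hc1S, hc1⟩ := himgS 1 0 h10 (hMt t10)
      rintro z (⟨w, rfl⟩ | ⟨u, hu, rfl⟩)
      · have := hSW w
        rwa [IsScalarTower.algebraMap_apply W O (Fld E)] at this
      · obtain ⟨y, h, e⟩ := Br.P_abs u hu
        obtain ⟨cu, hcuS, hcu⟩ := himgS _ y h (by
          rw [← e, ← map_nsmul, Br.P_eq_zero, NZ, not_not]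
          simp only [Prod.smul_fst, Prod.smul_snd, nsmul_eq_mul]
          exact ⟨dvd_mul_right _ _, dvd_mul_right _ _⟩)
        have : absF E L u hu = (cu - c0) / (c1 - c0) := by
          apply am.injective
          rw [map_div₀, map_sub, map_sub, hcu, hc0, hc1, hι]
          simp only [vcX, C₂, Units.val_mk0]
          field_simp
          ring
        rw [SetLike.mem_coe, this]
        exact div_mem (sub_mem hcuS hc0S) (sub_mem hc1S hc0S)

end Fermat.Agent.Carayol
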