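import Fermat.Agent.LL.Carayol.Two.Adjoin
import Fermat.Agent.LL.Carayol.Two.Field
import Fermat.Agent.Moduli.InteriorTwo

/-!
# The interior of the finite chart at residue characteristic two, deep two-power level
-/

set_option autoImplicit false
set_option linter.style.haveILetI false
set_option linter.unusedSectionVars false

noncomputable section

namespace Fermat.Agent.Carayol

open Polynomial IsLocalRing WeierstrassCurve Fermat.Agent.EC Pointwise Fermat.Agent.Moduli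
open Fermat.Agent.GalRep Fermat.Agent.ModField
open Fermat.Agent.GalRep.Model (Lev NZ chartRing mem_chartRing_iff self_mem_chartRing)

variable {W : Type} [CommRing W] [IsDomain W] [IsDiscreteValuationRing W]
  [IsAlgClosed (ResidueField W)] {O : Type} [CommRing O] [IsDomain O] [Algebra W O]
  {M : ℕ} [NeZero M] (E : Emb O M)

/-- A chain of halves of length `k - 1` over a point of order two, staying in the maximal ideal if
it starts there. -/
theorem exists_chain {F : Type} [Field F] [CharZero F] [DecidableEq F] {t : F} {Ω : Type} [Field Ω]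
    [IsAlgClosed Ω] [CharZero Ω] [DecidableEq Ω] [Algebra F Ω] (hA : t ^ 3 - 1 ≠ 0) {M k : ℕ}
    (hM : 2 ^ k ∣ M)
    (hc : ∀ (x y : Ω) (h : (hesseCurve (algebraMap F Ω t)).toAffine.Nonsingular x y),
      M • Affine.Point.some x y h = 0 →
        ∃ a b : F, algebraMap F Ω a = x ∧ algebraMap F Ω b = y)
    {R : Type} [CommRing R] [Algebra R F] {B : Subalgebra R F} (P : Ideal B) [P.IsPrime] (htB : t ∈ B) (hAP : (⟨t, htB⟩ ^ 3 - 1 : B) ∉ P)
    (hB : ∀ j ≤ k, ∀ T : (hesseCurve t).toAffine.Point, 2 ^ j • T = 0 → uOf T ∈ B)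
    (T₁ : (hesseCurve t).toAffine.Point) (hT : T₁ + T₁ = 0) (hT0 : T₁ ≠ 0) :
    ∀ i < k, ∃ T : (hesseCurve t).toAffine.Point, 2 ^ i • T = T₁ ∧
      ((∀ h : uOf T₁ ∈ B, (⟨uOf T₁, h⟩ : B) ∈ P) →
        ∀ h : uOf T ∈ B, (⟨uOf T, h⟩ : B) ∈ P) := by
  classical
  intro i
  induction i with
  | zero => exact fun _ => ⟨T₁, by rw [pow_zero, one_nsmul], fun h => h⟩
  | succ i ih =>
    intro hi
    obtain ⟨T, hTi, hTP⟩ := ih (by omega)
    have hT2 : 2 ^ (i + 1) • T = 0 := by rw [pow_succ, mul_nsmul, hTi, two_nsmul, hT]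
    have hTne : T ≠ 0 := by rintro rfl; exact hT0 (by rw [← hTi, nsmul_zero])
    have hM' : 2 ^ (i + 1 + 1) ∣ M := (pow_dvd_pow 2 (by omega)).trans hM
    have hback : ∀ T' : (hesseCurve t).toAffine.Point, T' + T' = T → 2 ^ (i + 1) • T' = T₁ :=
      fun T' e => by rw [pow_succ', mul_nsmul, two_nsmul, e, hTi]
    by_cases h : ∀ h : uOf T₁ ∈ B, (⟨uOf T₁, h⟩ : B) ∈ P
    · obtain ⟨T', h', hd, hP'⟩ := exists_half_mem hA hM' hc
        (fun S hS => hB (i + 1 + 1) (by omega) S hS) P htB hAP T hT2 hTne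
        (hB (i + 1) (by omega) T hT2) (hTP h _)
      exact ⟨T', hback T' hd, fun _ _ => hP'⟩
    · obtain ⟨r, hr⟩ := IsAlgClosed.exists_aeval_eq_zero Ω (halfPoly t (uOf T)) (by
        rw [degree_eq_natDegree (fun e => by simpa [e] using natDegree_halfPoly hA (uOf T)),
          natDegree_halfPoly hA]
        norm_num)
      obtain ⟨T', hd, -⟩ := exists_half hA hM' hc T hT2 hTne hr
      exact ⟨T', hback T' hd, fun h' => absurd h' h⟩

set_option maxHeartbeats 2000000 in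
/-- Every maximal ideal of the finite chart over `2` is locally generated by two elements, the
level having any two-power part. -/
theorem exists_regular_finite_twoPow {k n : ℕ} (hk : 0 < k)
    (hmax : maximalIdeal W = Ideal.span {(2 : W)})
    (hgen : Algebra.adjoin W {E.ζ} = ⊤) (hζ : ∃ c : W, algebraMap W O c = E.ζ ^ (2 ^ k))
    (hn : Odd n) (h3 : 3 ∣ n) (hM : M = 2 ^ k * n) (𝔪 : Ideal (chartRing O (jF E))) [h𝔪 : 𝔪.IsMaximal]
    (h2m : (2 : chartRing O (jF E)) ∈ 𝔪) :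
    ∃ x y : chartRing O (jF E), x ∈ 𝔪 ∧ y ∈ 𝔪 ∧
      ∀ z ∈ 𝔪, ∃ s ∉ 𝔪, s * z ∈ Ideal.span {x, y} := by
  classical
  rcases eq_or_lt_of_le (show 1 ≤ k from hk) with hk1 | hk2
  · subst hk1
    exact Moduli.exists_regular_finite_two E (n := n) hmax hgen (by simpa using hζ) hn h3
      (by simpa using hM) 𝔪 h2m
  replace hk2 : 2 ≤ k := hk2
  have hM2 : 2 ^ k ∣ M := ⟨n, hM⟩
  have h3M : 3 ∣ M := hM ▸ dvd_mul_of_dvd_right h3 _
  let L : Lev M :=
    { m := 2, e := 2 ^ (k - 1) * n, hm := Or.inl rfl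
      eq := by
        rw [hM]
        conv_lhs => rw [show k = k - 1 + 1 by omega, pow_succ]
        ring
      five := by
        have h4 : 4 ≤ 2 ^ k := (Nat.pow_le_pow_right (by norm_num) hk2 : 2 ^ 2 ≤ 2 ^ k)
        have h3' : 3 ≤ n := Nat.le_of_dvd (by rcases hn with ⟨a, rfl⟩; omega) h3
        have := Nat.mul_le_mul h4 h3'
        omega }
  have hLm : L.m = 2 := rfl
  have hMq : ¬ M ∣ 2 * 2 ^ k := fun hd => by
    have h := (Nat.Prime.dvd_of_dvd_pow Nat.prime_three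
      (n := k + 1) (m := 2) (by rw [pow_succ']; exact h3M.trans hd))
    omega
  -- constants
  let ψ : W →+* Fld E := (algebraMap O (Fld E)).comp (algebraMap W O)
  letI : Algebra W (Fld E) := ψ.toAlgebra
  haveI : IsScalarTower W O (Fld E) := IsScalarTower.of_algebraMap_eq fun w => rfl
  have h20 : (2 : W) ≠ 0 := fun h0 => by
    have := congrArg ψ h0
    rw [map_ofNat, map_zero] at this
    exact two_ne_zero this
  have hψ : Function.Injective ψ := injective_of_maximalIdeal_two hmax ψ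
  have hWO : Function.Injective (algebraMap W O) := fun x y h => hψ (by simp [ψ, h])
  have hodd : ∀ k : ℕ, Odd k → IsUnit (k : W) := fun k hk => isUnit_odd_natCast hmax hk
  have h3W : IsUnit (3 : W) := by simpa using hodd 3 (by decide)
  obtain ⟨t, hj, H, -⟩ := exists_hesseData_pow E L hLm hWO hgen hζ hMq h3M
  -- the base
  obtain ⟨f, hfinj, hal'⟩ := exists_hesseBaseHom E hWO
    fun _ hP => aeval_ne_zero_of_jRel E H.disc_ne hj hP
  letI : Algebra (HesseBase W) (Fld E) := f.toAlgebra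
  have hal : ∀ P : W[X], algebraMap (HesseBase W) (Fld E) (algebraMap W[X] (HesseBase W) P) =
      aeval t P := hal'
  haveI : FaithfulSMul (HesseBase W) (Fld E) := (faithfulSMul_iff_algebraMap_injective _ _).2 hfinj
  have htR : algebraMap (HesseBase W) (Fld E) (hesseVar W) = t := by rw [hesseVar, hal, aeval_X]
  have hiff := mem_chartRing_iff_isIntegral_hesse E hgen h3W hal H.disc_ne hj
  let g₀ : FractionRing (HesseBase W) →+* Fld E :=
    IsFractionRing.lift (A := HesseBase W) (K := FractionRing (HesseBase W)) hfinj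
  letI : Algebra (FractionRing (HesseBase W)) (Fld E) := g₀.toAlgebra
  haveI : IsScalarTower (HesseBase W) (FractionRing (HesseBase W)) (Fld E) :=
    IsScalarTower.of_algebraMap_eq fun r => (IsFractionRing.lift_algebraMap hfinj r).symm
  haveI : DecidableEq (Fld E) := Classical.decEq _
  let tR := hesseVar W
  let tF := algebraMap (HesseBase W) (Fld E) tR
  obtain ⟨hfd, hgal, hgenK⟩ := hesseFld_galois hal H
  have hA : tF ^ 3 - 1 ≠ 0 := disc_ne_base
  have hc : ∀ (x y : H.Ω) (h : (hesseCurve (algebraMap (Fld E) H.Ω tF)).toAffine.Nonsingular x y),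
      M • Affine.Point.some x y h = 0 →
        ∃ a b : Fld E, algebraMap (Fld E) H.Ω a = x ∧ algebraMap (Fld E) H.Ω b = y := by
    rw [show tF = t from htR]
    exact H.coord_mem
  let B := chartRing O (jF E)
  -- two-power torsion in the chart
  have huz : ∀ (j : ℕ) (T : (hesseCurve tF).toAffine.Point), 2 ^ j • T = 0 →
      uOf T ∈ B ∧ zOf T ∈ B := fun j T hT =>
    have h := isIntegral_uz tR rfl isUnit_hesseVar j T hT
    ⟨(hiff _).2 h.1, (hiff _).2 h.2⟩
  have htB : tF ∈ B := (hiff _).2 isIntegral_algebraMap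
  let tB : B := ⟨tF, htB⟩
  let iR : HesseBase W →+* B :=
    (algebraMap (HesseBase W) (Fld E)).codRestrict _ fun r => (hiff _).2 isIntegral_algebraMap
  have hAu : IsUnit (tB ^ 3 - 1) := by
    have := (isUnit_hesseVar (W := W)).map iR
    rwa [map_sub, map_pow, map_one] at this
  have hAm : tB ^ 3 - 1 ∉ 𝔪 := fun h => h𝔪.ne_top (Ideal.eq_top_of_isUnit_mem 𝔪 h hAu)
  -- `z` and `u` lie in the ideal together
  have hzu : ∀ (j : ℕ) (T : (hesseCurve tF).toAffine.Point), 2 ^ j • T = 0 →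
      ∀ (hz : zOf T ∈ B) (hu : uOf T ∈ B),
        ((⟨zOf T, hz⟩ : B) ∈ 𝔪 ↔ (⟨uOf T, hu⟩ : B) ∈ 𝔪) := fun j T hT hz hu => by
    set Z : B := ⟨zOf T, hz⟩
    set U : B := ⟨uOf T, hu⟩
    have hc : U * twoR tB Z U = Z ^ 2 := by
      apply Subtype.val_injective
      have e := (isDouble_of_point hA T hT).1.curve
      show (U * twoR tB Z U : B).1 = (Z ^ 2 : B).1
      simp only [twoR] at e ⊢
      push_cast
      exact e
    refine ⟨fun hZ => ?_, fun hU => h𝔪.isPrime.mem_of_pow_mem 2 (hc ▸ Ideal.mul_mem_right _ _ hU)⟩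
    refine (h𝔪.isPrime.mem_or_mem (hc ▸ Ideal.pow_mem_of_mem _ hZ 2 two_pos)).resolve_right
      fun hr => h𝔪.ne_top ((Ideal.eq_top_iff_one _).2 ?_)
    rw [show (1 : B) = twoR tB Z U + Z * (3 * tB + (tB ^ 3 - 1) * U) by simp only [twoR]; ring]
    exact add_mem hr (Ideal.mul_mem_right _ _ hZ)
  -- the points of order two
  have hroot : ∀ z : Fld E, (t ^ 3 - 1) * z ^ 3 - 3 * t * z + 2 = 0 →
      ∃ (T : (hesseCurve tF).toAffine.Point), T + T = 0 ∧ T ≠ 0 ∧ zOf T = z ∧ z ∈ B := fun z hz => by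
    obtain ⟨T, h1, h2, h3⟩ := exists_twoPoint hA (by rw [show tF = t from htR]; exact hz)
    exact ⟨T, h1, h2, h3, h3 ▸ (huz 1 T (by rw [pow_one, two_nsmul, h1])).2⟩
  obtain ⟨hQ₀, hP₀⟩ := two_torsion_vieta H.z_ne H.root₁ H.root₂
  have hroot₃ : (t ^ 3 - 1) * (-(H.z₁ + H.z₂)) ^ 3 - 3 * t * (-(H.z₁ + H.z₂)) + 2 = 0 := by
    linear_combination (-(H.z₁ + H.z₂)) * hQ₀ - hP₀
  obtain ⟨u, v, hu1, hv1, hne, hum⟩ : ∃ u v : Fld E, (t ^ 3 - 1) * u ^ 3 - 3 * t * u + 2 = 0 ∧
      (t ^ 3 - 1) * v ^ 3 - 3 * t * v + 2 = 0 ∧ u ≠ v ∧ ∀ h : u ∈ B, (⟨u, h⟩ : B) ∈ 𝔪 := by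
    obtain ⟨-, -, -, -, hz1⟩ := hroot _ H.root₁
    obtain ⟨-, -, -, -, hz2⟩ := hroot _ H.root₂
    by_cases a1 : (⟨H.z₁, hz1⟩ : B) ∈ 𝔪
    · exact ⟨_, _, H.root₁, H.root₂, H.z_ne, fun _ => a1⟩
    by_cases a2 : (⟨H.z₂, hz2⟩ : B) ∈ 𝔪
    · exact ⟨_, _, H.root₂, H.root₁, H.z_ne.symm, fun _ => a2⟩
    have hp : (tB ^ 3 - 1) * (⟨H.z₁, hz1⟩ * ⟨H.z₂, hz2⟩ * (⟨H.z₁, hz1⟩ + ⟨H.z₂, hz2⟩)) ∈ 𝔪 := by
      have e : ((tB ^ 3 - 1) * (⟨H.z₁, hz1⟩ * ⟨H.z₂, hz2⟩ * (⟨H.z₁, hz1⟩ + ⟨H.z₂, hz2⟩)) : B) = 2 :=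
        Subtype.ext (by push_cast; show (tF ^ 3 - 1) * _ = _; rw [show tF = t from htR]; exact hP₀)
      rw [e]; exact h2m
    have hsum := (h𝔪.isPrime.mem_or_mem ((h𝔪.isPrime.mem_or_mem hp).resolve_left hAm)).resolve_left
      fun h => (h𝔪.isPrime.mem_or_mem h).elim a1 a2
    refine ⟨_, _, hroot₃, H.root₂, fun e => a1 ?_, fun h => ?_⟩
    · have e' : (⟨H.z₁, hz1⟩ : B) = -(⟨H.z₂, hz2⟩ + ⟨H.z₂, hz2⟩) :=
        Subtype.ext (by push_cast; linear_combination -e)
      rw [e', ← two_mul]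
      exact neg_mem (Ideal.mul_mem_right _ _ h2m)
    · rw [show (⟨-(H.z₁ + H.z₂), h⟩ : B) = -(⟨H.z₁, hz1⟩ + ⟨H.z₂, hz2⟩) from rfl]
      exact neg_mem hsum
  obtain ⟨P₁, hP₁, hP₁0, hP₁z, huB⟩ := hroot u hu1
  obtain ⟨Q₁, hQ₁, hQ₁0, hQ₁z, hvB⟩ := hroot v hv1
  obtain ⟨hQ', hP'⟩ := two_torsion_vieta hne hu1 hv1
  obtain ⟨P, hP2, hPm⟩ := exists_chain hA hM2 hc 𝔪 htB hAm (fun j _ T hT => (huz j T hT).1) P₁ hP₁
    hP₁0 (k - 1) (by omega)
  obtain ⟨Q, hQ2, hQm⟩ := exists_chain hA hM2 hc 𝔪 htB hAm (fun j _ T hT => (huz j T hT).1) Q₁ hQ₁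
    hQ₁0 (k - 1) (by omega)
  have hkP : 2 ^ k • P = 0 := by
    rw [show k = k - 1 + 1 by omega, pow_succ, mul_nsmul, hP2, two_nsmul, hP₁]
  have hkQ : 2 ^ k • Q = 0 := by
    rw [show k = k - 1 + 1 by omega, pow_succ, mul_nsmul, hQ2, two_nsmul, hQ₁]
  have hP₁k : 2 ^ 1 • P₁ = 0 := by rw [pow_one, two_nsmul, hP₁]
  have hQ₁k : 2 ^ 1 • Q₁ = 0 := by rw [pow_one, two_nsmul, hQ₁]
  have hzP : ∀ h : zOf P ∈ B, (⟨zOf P, h⟩ : B) ∈ 𝔪 := fun h => by
    refine (hzu k P hkP h (huz k P hkP).1).2 (hPm (fun h' => ?_) _)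
    refine (hzu 1 P₁ hP₁k (hP₁z ▸ huB) h').1 ?_
    convert hum huB using 2
  -- the field of the chains
  let gens := chainGens k P Q
  let F2 := IntermediateField.adjoin (FractionRing (HesseBase W)) gens
  haveI : IsGalois F2 (Fld E) := IsGalois.tower_top_intermediateField F2
  -- the group on the chart
  have hgR : ∀ (g : Fld E ≃ₐ[F2] Fld E) (r : HesseBase W),
      g (algebraMap (HesseBase W) (Fld E) r) = algebraMap (HesseBase W) (Fld E) r := fun g r => by
    rw [IsScalarTower.algebraMap_apply (HesseBase W) (FractionRing (HesseBase W)) (Fld E)]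
    exact g.commutes (algebraMap (FractionRing (HesseBase W)) F2 _)
  let gR : (Fld E ≃ₐ[F2] Fld E) → (Fld E →ₐ[HesseBase W] Fld E) := fun g =>
    { (g : Fld E →+* Fld E) with commutes' := hgR g }
  have hgB : ∀ (g : Fld E ≃ₐ[F2] Fld E) (x : Fld E), x ∈ chartRing O (jF E) →
      g x ∈ chartRing O (jF E) := fun g x hx =>
    (hiff _).2 (((hiff x).1 hx).map (gR g))
  letI act : MulSemiringAction (Fld E ≃ₐ[F2] Fld E) (chartRing O (jF E)) :=
    { smul := fun g x => ⟨g x, hgB g x x.2⟩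
      one_smul := fun x => rfl
      mul_smul := fun g h x => rfl
      smul_zero := fun g => Subtype.ext (map_zero g)
      smul_add := fun g x y => Subtype.ext (map_add g _ _)
      smul_one := fun g => Subtype.ext (map_one g)
      smul_mul := fun g x y => Subtype.ext (map_mul g _ _) }
  letI : Algebra (HesseBase W) (chartRing O (jF E)) := iR.toAlgebra
  haveI : IsScalarTower (HesseBase W) (chartRing O (jF E)) (Fld E) :=
    IsScalarTower.of_algebraMap_eq fun r => rfl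
  haveI : Algebra.IsIntegral (HesseBase W) (chartRing O (jF E)) :=
    ⟨fun x => (isIntegral_algebraMap_iff (A := chartRing O (jF E)) (B := Fld E)
      Subtype.val_injective).1 ((hiff x).1 x.2)⟩
  set I := 𝔪.comap (algebraMap (HesseBase W) (chartRing O (jF E)))
  haveI : I.IsMaximal := Ideal.isMaximal_comap_of_isIntegral_of_isMaximal 𝔪
  obtain ⟨c₀, hIc, hsplit, -⟩ := exists_hessePoint hmax h20 I (by
    show algebraMap (HesseBase W) (chartRing O (jF E)) 2 ∈ 𝔪
    rwa [map_ofNat])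
  have hnR : IsUnit (n : HesseBase W) := by
    have := (hodd n hn).map ((algebraMap W[X] (HesseBase W)).comp Polynomial.C)
    rwa [map_natCast] at this
  have hB : CoordsFrom (chartRing O (jF E)) tF n :=
    fun x y h hT =>
      let ⟨hx, hy⟩ := isIntegral_hesseFld H hnR h hT
      ⟨⟨x, (hiff x).2 hx⟩, ⟨y, (hiff y).2 hy⟩, rfl, rfl⟩
  -- the action is free at the point
  have hfree : ∀ g : Fld E ≃ₐ[F2] Fld E, g • 𝔪 = 𝔪 → g = 1 := by
    intro g hg
    have hres : ∀ z : chartRing O (jF E), g • z - z ∈ 𝔪 := fun z => by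
      obtain ⟨r, hr⟩ := exists_sub_mem_of_splitsMod hsplit 𝔪 (fun r hr => hr) z
      have h1 : g • (z - algebraMap _ _ r) ∈ 𝔪 := by
        rw [← hg]; exact Ideal.smul_mem_pointwise_smul g _ _ hr
      have e : g • algebraMap (HesseBase W) (chartRing O (jF E)) r =
          algebraMap (HesseBase W) (chartRing O (jF E)) r := Subtype.ext (hgR g r)
      rw [smul_sub, e] at h1
      have := sub_mem h1 hr
      rwa [sub_sub_sub_cancel_right] at this
    let gA : Fld E →ₐ[HesseBase W] Fld E := gR g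
    -- the two chains are fixed
    have hfixz : ∀ z ∈ gens, g z = z := fun z hz =>
      g.commutes ⟨z, IntermediateField.subset_adjoin _ _ hz⟩
    have hfix : ∀ S : (hesseCurve tF).toAffine.Point, 2 ^ k • S = 0 → g (zOf S) = zOf S →
        g (uOf S) = uOf S → hesseMap tR gA S = S := by
      intro S hS hz hu
      rcases S with _ | ⟨x, y, h⟩
      · exact map_zero _
      obtain ⟨h', e⟩ := hesseMap_some tR gA h
      have hx := x_ne_zero_of_two_pow hA h hS
      have hy := y_ne_zero_of_x_ne_zero h hx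
      rw [uOf_some, map_inv₀, inv_inj] at hu
      rw [zOf_some, map_div₀, map_neg, hu] at hz
      have hy' : g y = y := by
        rw [div_eq_div_iff ((map_ne_zero g).2 hy) hy] at hz
        exact mul_left_cancel₀ (neg_ne_zero.2 hx) (by linear_combination -hz)
      rw [e, Affine.Point.some.injEq]
      exact ⟨hu, hy'⟩
    have h0 : (⟨0, Nat.succ_pos _⟩ : Fin (k + 1)).val = 0 := rfl
    have hPfix : hesseMap tR gA P = P := hfix P hkP
      (hfixz _ (Or.inl (Or.inl (Or.inl ⟨⟨0, Nat.succ_pos _⟩, by simp⟩))))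
      (hfixz _ (Or.inl (Or.inl (Or.inr ⟨⟨0, Nat.succ_pos _⟩, by simp⟩))))
    have hQfix : hesseMap tR gA Q = Q := hfix Q hkQ
      (hfixz _ (Or.inl (Or.inr ⟨⟨0, Nat.succ_pos _⟩, by simp⟩)))
      (hfixz _ (Or.inr ⟨⟨0, Nat.succ_pos _⟩, by simp⟩))
    have h2fix : ∀ T : (hesseCurve tF).toAffine.Point, 2 ^ k • T = 0 → hesseMap tR gA T = T := by
      intro T hT
      obtain ⟨a, b, rfl⟩ := mem_closure_pair (P := P) (Q := Q) (k := k) hk (fun S hS => by
        rw [hP2, hQ2]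
        rw [AddSubgroup.mem_closure_pair]
        by_cases hS0 : S = 0
        · exact ⟨0, 0, by simp [hS0]⟩
        have hu' : (tF ^ 3 - 1) * u ^ 3 - 3 * tF * u + 2 = 0 := by
          rw [show tF = t from htR]; exact hu1
        have hv' : (tF ^ 3 - 1) * v ^ 3 - 3 * tF * v + 2 = 0 := by
          rw [show tF = t from htR]; exact hv1
        obtain ⟨hcases, huniq⟩ := two_torsion_cases_hesse hA hne hu' hv' hS hS0
        have hPQ : P₁ + Q₁ ≠ 0 := fun e => hne (by
          rw [← hP₁z, ← hQ₁z, show Q₁ = P₁ from add_left_cancel (e.trans hP₁.symm)])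
        have hPQ2 : P₁ + Q₁ + (P₁ + Q₁) = 0 := by rw [add_add_add_comm, hP₁, hQ₁, add_zero]
        obtain ⟨hc', huq⟩ := two_torsion_cases_hesse hA hne hu' hv' hPQ2 hPQ
        rcases hcases with e | e | e
        · exact ⟨1, 0, by simpa using huniq P₁ hP₁ hP₁0 (hP₁z.trans e.symm)⟩
        · exact ⟨0, 1, by simpa using huniq Q₁ hQ₁ hQ₁0 (hQ₁z.trans e.symm)⟩
        · refine ⟨1, 1, ?_⟩
          rw [one_smul, one_smul]
          refine huniq (P₁ + Q₁) hPQ2 hPQ ?_
          rcases hc' with e' | e' | e'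
          · exact absurd (huq P₁ hP₁ hP₁0 (hP₁z.trans e'.symm)) (fun h =>
              hQ₁0 (add_left_cancel (a := P₁) (by rw [← h, add_zero])))
          · exact absurd (huq Q₁ hQ₁ hQ₁0 (hQ₁z.trans e'.symm)) (fun h =>
              hP₁0 (add_right_cancel (b := Q₁) (by rw [← h, zero_add])))
          · rw [e', e]) k le_rfl T hT
      simp only [Nat.sub_self, pow_zero, one_nsmul, map_add, map_zsmul, hPfix, hQfix]
    have hnfix : ∀ T : (hesseCurve tF).toAffine.Point, n • T = 0 → hesseMap tR gA T = T := by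
      rintro (_ | ⟨x, y, h⟩) hT
      · exact map_zero _
      obtain ⟨X', Y', rfl, rfl⟩ := hB x y h hT
      obtain ⟨h', e⟩ := hesseMap_some tR gA h
      obtain ⟨e1, e2⟩ := eq_of_congr_odd 𝔪 h2m (t' := tB) rfl hAm hn hB
        (X := g • X') (Y := g • Y') (X' := X') (Y' := Y') h' h
        ((congrArg (n • ·) e).symm.trans ((map_nsmul _ _ _).symm.trans
          ((congrArg (hesseMap tR gA) hT).trans (map_zero _)))) hT (hres X') (hres Y')
      rw [e, Affine.Point.some.injEq]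
      exact ⟨congrArg Subtype.val e1, congrArg Subtype.val e2⟩
    have hall : ∀ T : (hesseCurve tF).toAffine.Point, M • T = 0 → hesseMap tR gA T = T := by
      intro T hT
      obtain ⟨a, b, hab⟩ : IsCoprime (n : ℤ) ((2 ^ k : ℕ) : ℤ) :=
        ((Nat.coprime_two_right.2 hn).pow_right k).isCoprime
      have h1 : 2 ^ k • (n • T) = 0 := by rw [← mul_nsmul, mul_comm, ← hM, hT]
      have h2 : n • (2 ^ k • T) = 0 := by rw [← mul_nsmul, ← hM, hT]
      have e : T = a • (n • T) + b • (2 ^ k • T) := by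
        rw [← natCast_zsmul T n, ← natCast_zsmul T (2 ^ k), smul_smul, smul_smul, ← add_smul, hab,
          one_smul]
      rw [e, map_add, map_zsmul, map_zsmul, h2fix _ h1, hnfix _ h2]
    let g' : Fld E →ₐ[FractionRing (HesseBase W)] Fld E := (g.restrictScalars _).toAlgHom
    let F' : IntermediateField (FractionRing (HesseBase W)) (Fld E) :=
      { AlgHom.equalizer g' (AlgHom.id _ _) with
        inv_mem' := fun x hx => by
          show g' x⁻¹ = x⁻¹
          rw [map_inv₀]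
          exact congrArg _ hx }
    have hF' : F' = ⊤ := hgenK F' fun a c h hT => by
      obtain ⟨h', e⟩ := hesseMap_some tR gA h
      have := hall _ hT
      rw [e, Affine.Point.some.injEq] at this
      exact this.1
    exact AlgEquiv.ext fun x => (hF' ▸ IntermediateField.mem_top : x ∈ F')
  haveI : Fintype (Fld E ≃ₐ[F2] Fld E) := Fintype.ofFinite _
  -- the ring of the chains
  have hint : ∀ z ∈ gens, _root_.IsIntegral (HesseBase W) z := by
    have hm : ∀ (R' : (hesseCurve tF).toAffine.Point) (i : ℕ), 2 ^ k • R' = 0 →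
        2 ^ k • (2 ^ i • R') = 0 := fun R' i h => by
      rw [← mul_nsmul, mul_comm, mul_nsmul, h, nsmul_zero]
    rintro g (((⟨i, rfl⟩ | ⟨i, rfl⟩) | ⟨i, rfl⟩) | ⟨i, rfl⟩)
    · exact (isIntegral_uz _ rfl isUnit_hesseVar k _ (hm P i hkP)).2
    · exact (isIntegral_uz _ rfl isUnit_hesseVar k _ (hm P i hkP)).1
    · exact (isIntegral_uz _ rfl isUnit_hesseVar k _ (hm Q i hkQ)).2
    · exact (isIntegral_uz _ rfl isUnit_hesseVar k _ (hm Q i hkQ)).1
  have hSle : ∀ x ∈ chainRing k P Q, x ∈ chartRing O (jF E) := fun x hx =>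
    (hiff x).2 ((Algebra.adjoin_le (S := integralClosure (HesseBase W) (Fld E))
      (fun z hz => hint z hz)) hx)
  let φ : chainRing k P Q →+* chartRing O (jF E) :=
    (chainRing k P Q).val.toRingHom.codRestrict _ fun x => hSle x x.2
  letI : Algebra (chainRing k P Q) (chartRing O (jF E)) := φ.toAlgebra
  haveI : IsScalarTower (HesseBase W) (chainRing k P Q) (chartRing O (jF E)) :=
    IsScalarTower.of_algebraMap_eq fun r => rfl
  haveI : Algebra.IsIntegral (chainRing k P Q) (chartRing O (jF E)) :=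
    Algebra.IsIntegral.tower_top (HesseBase W)
  set 𝔫 := 𝔪.comap (algebraMap (chainRing k P Q) (chartRing O (jF E))) with h𝔫
  haveI : 𝔫.IsMaximal := Ideal.isMaximal_comap_of_isIntegral_of_isMaximal 𝔪
  have hQ'' : (tF ^ 3 - 1) * (zOf (2 ^ (k - 1) • P) ^ 2 + zOf (2 ^ (k - 1) • P) *
      zOf (2 ^ (k - 1) • Q) + zOf (2 ^ (k - 1) • Q) ^ 2) = 3 * tF := by
    rw [hP2, hQ2, hP₁z, hQ₁z, show tF = t from htR]; exact hQ'
  have hP'' : (tF ^ 3 - 1) * (zOf (2 ^ (k - 1) • P) * zOf (2 ^ (k - 1) • Q) *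
      (zOf (2 ^ (k - 1) • P) + zOf (2 ^ (k - 1) • Q))) = 2 := by
    rw [hP2, hQ2, hP₁z, hQ₁z, show tF = t from htR]; exact hP'
  obtain ⟨a, b', ha, hb, hgenn, hnorm⟩ := chainRing_regular hmax h20 hk2 P Q hkP hkQ hQ'' hP'' 𝔫
    (by rw [h𝔫, Ideal.mem_comap, map_ofNat]; exact h2m) (fun h => hzP _) fun h1 h hm => by
      have hzQ₁ : (⟨zOf Q₁, (huz 1 Q₁ hQ₁k).2⟩ : B) ∈ 𝔪 := by
        have e : zOf (2 ^ (k - 1) • Q) = zOf Q₁ := congrArg zOf hQ2
        have hm' : (⟨zOf (2 ^ (k - 1) • Q), hSle _ h1⟩ : B) ∈ 𝔪 := hm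
        rwa [show (⟨zOf (2 ^ (k - 1) • Q), hSle _ h1⟩ : B) = ⟨zOf Q₁, (huz 1 Q₁ hQ₁k).2⟩ from
          Subtype.ext e] at hm'
      exact (hzu k Q hkQ _ (huz k Q hkQ).1).2
        (hQm (fun h' => (hzu 1 Q₁ hQ₁k _ h').1 hzQ₁) _)
  refine ⟨φ a, φ b', ha, hb,
    exists_mul_mem_span_pair (G := Fld E ≃ₐ[F2] Fld E) φ 𝔪 hfree (fun y hfix => ?_) hgenn⟩
  have hyF : (y : Fld E) ∈ F2 := by
    have := (IsGalois.mem_bot_iff_fixed (y : Fld E)).2 fun g => congrArg Subtype.val (hfix g)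
    obtain ⟨w, hw⟩ := IntermediateField.mem_bot.1 this
    exact hw ▸ w.2
  obtain ⟨s, hs, y', hy'⟩ := hnorm y ((hiff y).1 y.2) (exists_frac_of_mem_adjoin gens hyF)
  exact ⟨s, hs, y', Subtype.ext hy'⟩

end Fermat.Agent.Carayol
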