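import Fermat.Agent.LL.Carayol.Two.Double
import Fermat.Agent.Moduli.TwoGalois

/-!
# Points of two-power order on the level three family

Halves exist, one of them in the maximal ideal when the point is, and two chains over independent
points of order two generate.
-/

set_option autoImplicit false
set_option linter.style.haveILetI false
set_option linter.unusedSectionVars false

noncomputable section

namespace Fermat.Agent.Carayol

open Polynomial WeierstrassCurve Fermat.Agent.EC Fermat.Agent.Moduli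

variable {F : Type} [Field F] [CharZero F] [DecidableEq F] {t : F}

/-- The abscissa of a half is a root. -/
def halfPoly (t w : F) : F[X] :=
  C ((t ^ 3 - 1) ^ 2) * X ^ 4 +
    C (6 * t * (t ^ 3 - 1) + 2 * (t ^ 3 - 1) ^ 2 * w) * X ^ 3 +
    C (9 * t ^ 2 + 3 * t * (t ^ 3 - 1) * w) * X ^ 2 + C 4 * X + C (-w)

lemma natDegree_halfPoly (hA : t ^ 3 - 1 ≠ 0) (w : F) : (halfPoly t w).natDegree = 4 := by
  unfold halfPoly
  compute_degree!

/-- Two-power torsion is integral over a base where the discriminant is a unit. -/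
theorem isIntegral_uz {R : Type} [CommRing R] [Algebra R F] (tR : R)
    (htR : algebraMap R F tR = t) (hA : IsUnit (tR ^ 3 - 1)) :
    ∀ (j : ℕ) (T : (hesseCurve t).toAffine.Point), 2 ^ j • T = 0 →
      _root_.IsIntegral R (uOf T) ∧ _root_.IsIntegral R (zOf T) := by
  have hA' : t ^ 3 - 1 ≠ 0 := by
    rw [← htR, ← map_one (algebraMap R F), ← map_pow, ← map_sub]
    exact (hA.map (algebraMap R F)).ne_zero
  intro j
  induction j with
  | zero =>
    intro T hT
    rw [pow_zero, one_nsmul] at hT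
    subst hT
    exact ⟨by rw [uOf_zero]; exact isIntegral_zero, by rw [zOf_zero]; exact isIntegral_zero⟩
  | succ j ih =>
    intro T hT
    obtain ⟨hd, hq⟩ := isDouble_of_point hA' T hT
    obtain ⟨hu2, -⟩ := ih (T + T) (by rw [← two_nsmul, ← mul_nsmul, ← pow_succ', hT])
    obtain ⟨a, ha⟩ := hA.exists_left_inv
    have ha' : algebraMap R F a * (t ^ 3 - 1) = 1 := by
      rw [← htR, ← map_one (algebraMap R F), ← map_pow, ← map_sub, ← map_mul, ha]
    let Cl := integralClosure R F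
    let w : Cl := ⟨_, hu2⟩
    let tC : Cl := algebraMap R Cl tR
    let aC : Cl := algebraMap R Cl a
    have hu : _root_.IsIntegral R (uOf T) := by
      refine isIntegral_trans (A := Cl) _ ⟨X ^ 4 +
        C (6 * tC * aC + 2 * w) * X ^ 3 +
        C ((9 * tC ^ 2 + 3 * tC * (tC ^ 3 - 1) * w) * aC ^ 2) * X ^ 2 +
        C (4 * aC ^ 2) * X - C (w * aC ^ 2), by monicity!, ?_⟩
      simp only [eval₂_add, eval₂_sub, eval₂_mul, eval₂_pow, eval₂_X, eval₂_C, eval₂_ofNat,
        eval₂_one, map_add, map_mul, map_pow, map_sub, map_one, map_ofNat]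
      show uOf T ^ 4 + (6 * algebraMap R F tR * algebraMap R F a + 2 * uOf (T + T)) * uOf T ^ 3 +
        ((9 * algebraMap R F tR ^ 2 + 3 * algebraMap R F tR * (algebraMap R F tR ^ 3 - 1) *
          uOf (T + T)) * algebraMap R F a ^ 2) * uOf T ^ 2 + 4 * algebraMap R F a ^ 2 * uOf T -
        uOf (T + T) * algebraMap R F a ^ 2 = 0
      rw [htR]
      linear_combination (-(algebraMap R F a) ^ 2) * hq -
        (uOf T ^ 4 * (algebraMap R F a * (t ^ 3 - 1) + 1) + 6 * t * algebraMap R F a * uOf T ^ 3 +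
          2 * uOf (T + T) * (algebraMap R F a * (t ^ 3 - 1) + 1) * uOf T ^ 3) * ha'
    refine ⟨hu, isIntegral_trans (A := Cl) _ ⟨X ^ 2 + C (3 * tC * ⟨_, hu⟩ + (tC ^ 3 - 1) *
      (⟨_, hu⟩ : Cl) ^ 2) * X - C (⟨_, hu⟩ : Cl), by monicity!, ?_⟩⟩
    simp only [eval₂_add, eval₂_sub, eval₂_mul, eval₂_pow, eval₂_X, eval₂_C, eval₂_ofNat,
      eval₂_one, map_add, map_mul, map_pow, map_sub, map_one, map_ofNat]
    show zOf T ^ 2 + (3 * algebraMap R F tR * uOf T + (algebraMap R F tR ^ 3 - 1) * uOf T ^ 2) *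
      zOf T - uOf T = 0
    rw [htR]
    have := hd.curve
    simp only [twoR] at this
    linear_combination -this

section Half

variable {Ω : Type} [Field Ω] [IsAlgClosed Ω] [CharZero Ω] [DecidableEq Ω] [Algebra F Ω]

/-- A root is the abscissa of a half. -/
theorem exists_half (hA : t ^ 3 - 1 ≠ 0) {M j : ℕ} (hM : 2 ^ (j + 1) ∣ M)
    (hc : ∀ (x y : Ω) (h : (hesseCurve (algebraMap F Ω t)).toAffine.Nonsingular x y),
      M • Affine.Point.some x y h = 0 →
        ∃ a b : F, algebraMap F Ω a = x ∧ algebraMap F Ω b = y)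
    (T : (hesseCurve t).toAffine.Point) (hT : 2 ^ j • T = 0) (hT0 : T ≠ 0) {r : Ω}
    (hr : aeval r (halfPoly t (uOf T)) = 0) :
    ∃ T' : (hesseCurve t).toAffine.Point, T' + T' = T ∧ algebraMap F Ω (uOf T') = r := by
  rcases T with _ | ⟨xT, yT, hN⟩
  · exact absurd rfl hT0
  set am := algebraMap F Ω
  set τ := am t with hτ
  have hAτ : τ ^ 3 - 1 ≠ 0 := by
    rw [hτ, ← map_one am, ← map_pow, ← map_sub]
    exact (map_ne_zero am).2 hA
  have hxT : xT ≠ 0 := x_ne_zero_of_two_pow hA hN hT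
  have hx' : am xT ≠ 0 := (map_ne_zero am).2 hxT
  simp only [halfPoly, map_add, map_mul, map_pow, aeval_C, aeval_X, uOf_some, map_neg, map_sub,
    map_one, map_ofNat, map_inv₀] at hr
  replace hr : (τ ^ 3 - 1) ^ 2 * r ^ 4 + (6 * τ * (τ ^ 3 - 1) + 2 * (τ ^ 3 - 1) ^ 2 * (am xT)⁻¹) * r ^ 3 +
      (9 * τ ^ 2 + 3 * τ * (τ ^ 3 - 1) * (am xT)⁻¹) * r ^ 2 + 4 * r + -(am xT)⁻¹ = 0 := hr
  have hr0 : r ≠ 0 := by
    rintro rfl
    apply inv_ne_zero hx'
    linear_combination -hr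
  obtain ⟨y, hy⟩ : ∃ y : Ω, (hesseCurve τ).toAffine.Nonsingular r⁻¹ y := by
    haveI : (hesseCurve τ).IsElliptic := ⟨by
      rw [hesseCurve_Δ]
      exact (isUnit_iff_ne_zero.2 (by norm_num)).mul (isUnit_iff_ne_zero.2 (pow_ne_zero _ hAτ))⟩
    obtain ⟨y, hy⟩ := exists_point (W := hesseCurve τ) (φ := RingHom.id Ω) r⁻¹
    rw [WeierstrassCurve.map_id] at hy
    exact ⟨y, hy⟩
  set x := r⁻¹ with hxdef
  have he := equation_of_point hy
  set D₀ := 2 * y + 3 * τ * x + (τ ^ 3 - 1) with hD₀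
  set L₀ := 3 * x ^ 2 - 3 * τ * y with hL₀
  have hquart : am xT * D₀ ^ 2 = x ^ 4 - 3 * τ * (τ ^ 3 - 1) * x ^ 2 - 2 * (τ ^ 3 - 1) ^ 2 * x := by
    have hDsq : D₀ ^ 2 = 4 * x ^ 3 + 9 * τ ^ 2 * x ^ 2 + 6 * τ * (τ ^ 3 - 1) * x +
        (τ ^ 3 - 1) ^ 2 := by
      rw [hD₀]; linear_combination (4 : Ω) * he
    have hrx : r * x = 1 := mul_inv_cancel₀ hr0
    have hr' : am xT * ((τ ^ 3 - 1) ^ 2 * r ^ 4 + 6 * τ * (τ ^ 3 - 1) * r ^ 3 +
        9 * τ ^ 2 * r ^ 2 + 4 * r) =
        1 - 3 * τ * (τ ^ 3 - 1) * r ^ 2 - 2 * (τ ^ 3 - 1) ^ 2 * r ^ 3 := by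
      linear_combination am xT * hr -
        (2 * (τ ^ 3 - 1) ^ 2 * r ^ 3 + 3 * τ * (τ ^ 3 - 1) * r ^ 2 - 1) * mul_inv_cancel₀ hx'
    rw [hDsq, hxdef]
    field_simp
    linear_combination hr'
  have hne : y ≠ (hesseCurve τ).toAffine.negY x y := by
    intro e
    rw [negY_hesse] at e
    have hD0 : D₀ = 0 := by rw [hD₀]; linear_combination e
    have hL : L₀ = 0 := eq_zero_of_pow_eq_zero (n := 2) (by
      linear_combination -hquart + (am xT * D₀ - 3 * τ * L₀ + 2 * x * D₀) * hD0 -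
        (9 * τ ^ 2 + 8 * x) * he)
    rcases (Affine.nonsingular_iff _ _).1 hy |>.2 with h | h
    · exact h (by simp only [hesseCurve]; linear_combination -hL)
    · exact h e
  obtain ⟨S, hS, hSu⟩ : ∃ S : (hesseCurve τ).toAffine.Point,
      S + S = hesseMap (R := F) t (Algebra.ofId F Ω) (Affine.Point.some xT yT hN) ∧
        ∃ (y' : Ω) (h : (hesseCurve τ).toAffine.Nonsingular x y'), S = Affine.Point.some x y' h := by
    obtain ⟨hTi, eT⟩ := hesseMap_some (R := F) t (Algebra.ofId F Ω) hN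
    rw [eT]
    have hsum := Affine.Point.add_self_of_Y_ne (h₁ := hy) hne
    have hx2 : (hesseCurve τ).toAffine.addX x x ((hesseCurve τ).toAffine.slope x x y y) = am xT := by
      apply mul_right_cancel₀ (b := D₀ ^ 2) (pow_ne_zero _ fun e => hne (by
        rw [negY_hesse, hD₀] at *; linear_combination e))
      rw [hquart, Affine.slope_of_Y_ne rfl hne, negY_hesse,
        show y - (-y - 3 * τ * x - (τ ^ 3 - 1)) = D₀ by rw [hD₀]; ring]
      have hD : D₀ ≠ 0 := fun e => hne (by rw [negY_hesse, hD₀] at *; linear_combination e)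
      simp only [Affine.addX, hesseCurve]
      field_simp
      rw [hD₀]
      linear_combination (-(9 * τ ^ 2) - 8 * x) * he
    rcases e2 : Affine.Point.some x y hy + Affine.Point.some x y hy with _ | ⟨x2, y2, h2⟩
    · exact absurd (hsum.symm.trans e2) (Affine.Point.some_ne_zero _)
    have e := hsum.symm.trans e2
    rw [Affine.Point.some.injEq] at e
    have hx : x2 = (Algebra.ofId F Ω) xT := e.1.symm.trans hx2
    rcases Affine.Y_eq_of_X_eq h2.1 hTi.1 hx with hy2 | hy2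
    · exact ⟨_, e2.trans (by rw [Affine.Point.some.injEq]; exact ⟨hx, hy2⟩), y, hy, rfl⟩
    · refine ⟨-Affine.Point.some x y hy, ?_, _, _, Affine.Point.neg_some hy⟩
      rw [← neg_add, e2, Affine.Point.neg_some]
      rw [Affine.Point.some.injEq]
      refine ⟨hx, ?_⟩
      rw [hy2, hx]
      exact Affine.negY_negY (W' := (hesseCurve τ).toAffine) _ _
  obtain ⟨y', h', rfl⟩ := hSu
  have hSM : M • Affine.Point.some x y' h' = 0 := by
    obtain ⟨e, rfl⟩ := hM
    rw [mul_nsmul, pow_succ', mul_nsmul, two_nsmul, hS, ← map_nsmul, hT, map_zero, nsmul_zero]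
  obtain ⟨a, b, ha, hb⟩ := hc x y' h' hSM
  have hab : (hesseCurve t).toAffine.Nonsingular a b := by
    have h'' : (hesseCurve τ).toAffine.Nonsingular (am a) (am b) := by rw [ha, hb]; exact h'
    rw [hτ, ← map_hesseCurve am t] at h''
    exact (Affine.map_nonsingular (W := (hesseCurve t).toAffine) am.injective a b).1 h''
  refine ⟨Affine.Point.some a b hab, hesseMap_injective (R := F) t (Algebra.ofId F Ω) ?_, ?_⟩
  · obtain ⟨h3, e3⟩ := hesseMap_some (R := F) t (Algebra.ofId F Ω) hab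
    have e4 : hesseMap (R := F) t (Algebra.ofId F Ω) (Affine.Point.some a b hab) =
        Affine.Point.some x y' h' := e3.trans (by rw [Affine.Point.some.injEq]; exact ⟨ha, hb⟩)
    exact (map_add _ _ _).trans ((congrArg₂ (· + ·) e4 e4).trans hS)
  · rw [uOf_some, map_inv₀, ha, hxdef, inv_inv]

/-- A half in a prime ideal containing the point. -/
theorem exists_half_mem (hA : t ^ 3 - 1 ≠ 0) {M j : ℕ} (hM : 2 ^ (j + 1) ∣ M)
    (hc : ∀ (x y : Ω) (h : (hesseCurve (algebraMap F Ω t)).toAffine.Nonsingular x y),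
      M • Affine.Point.some x y h = 0 →
        ∃ a b : F, algebraMap F Ω a = x ∧ algebraMap F Ω b = y)
    {R : Type} [CommRing R] [Algebra R F] {B : Subalgebra R F} (hB : ∀ T : (hesseCurve t).toAffine.Point, 2 ^ (j + 1) • T = 0 → uOf T ∈ B)
    (P : Ideal B) [P.IsPrime] (htB : t ∈ B) (hAP : (⟨t, htB⟩ ^ 3 - 1 : B) ∉ P)
    (T : (hesseCurve t).toAffine.Point) (hT : 2 ^ j • T = 0) (hT0 : T ≠ 0)
    (hu : uOf T ∈ B) (huP : (⟨uOf T, hu⟩ : B) ∈ P) :
    ∃ (T' : (hesseCurve t).toAffine.Point) (h : uOf T' ∈ B),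
      T' + T' = T ∧ (⟨uOf T', h⟩ : B) ∈ P := by
  classical
  set am := algebraMap F Ω
  set f := halfPoly t (uOf T)
  have hdeg := natDegree_halfPoly hA (uOf T)
  have hspl := (IsAlgClosed.splits (f.map am)).eq_prod_roots
  have hroot : ∀ r ∈ (f.map am).roots, ∃ b : B, am b = r ∧
      ∃ (T' : (hesseCurve t).toAffine.Point), T' + T' = T ∧ uOf T' = b := fun r hr => by
    have h0 : aeval r f = 0 := by
      rw [aeval_def, eval₂_eq_eval_map]
      exact (mem_roots'.1 hr).2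
    obtain ⟨T', hd, hu'⟩ := exists_half hA hM hc T hT hT0 h0
    have h2 : 2 ^ (j + 1) • T' = 0 := by rw [pow_succ', mul_nsmul, two_nsmul, hd, hT]
    exact ⟨⟨_, hB T' h2⟩, hu', T', hd, rfl⟩
  choose! g hg hgT using hroot
  set A : B := (⟨t, htB⟩ : B) ^ 3 - 1
  have hprod : (-(⟨uOf T, hu⟩ : B)) = A ^ 2 * (((f.map am).roots).map fun r => -g r).prod := by
    apply Subtype.ext
    apply am.injective
    have h0 := congrArg (Polynomial.eval 0) hspl
    rw [eval_mul, eval_C, eval_multiset_prod, Multiset.map_map, eval_map, eval₂_at_zero] at h0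
    have hl : (f.map am).leadingCoeff = am ((t ^ 3 - 1) ^ 2) := by
      rw [leadingCoeff_map, leadingCoeff, hdeg]
      simp only [f, halfPoly, coeff_add, coeff_C_mul, coeff_X_pow, coeff_X, coeff_C]
      norm_num
    rw [hl, show f.coeff 0 = -uOf T by simp [f, halfPoly, coeff_zero_eq_eval_zero]] at h0
    push_cast
    rw [h0, map_mul]
    congr 1
    rw [map_multiset_prod, Multiset.map_map, Multiset.map_map]
    refine congrArg _ (Multiset.map_congr rfl fun r hr => ?_)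
    simp only [Function.comp_apply, eval_sub, eval_X, eval_C, zero_sub, Subalgebra.coe_val,
      NegMemClass.coe_neg, map_neg, hg r hr]
  have hmem : A ^ 2 * (((f.map am).roots).map fun r => -g r).prod ∈ P := hprod ▸ P.neg_mem huP
  rcases (‹P.IsPrime›).mem_or_mem hmem with h | h
  · exact absurd (‹P.IsPrime›.mem_of_pow_mem 2 h) hAP
  rw [(‹P.IsPrime›).multiset_prod_mem_iff_exists_mem] at h
  obtain ⟨y, hy, hyP⟩ := h
  obtain ⟨r, hr, rfl⟩ := Multiset.mem_map.1 hy
  obtain ⟨T', hd, hu'⟩ := hgT r hr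
  refine ⟨T', hu' ▸ (g r).2, hd, ?_⟩
  rw [show (⟨uOf T', hu' ▸ (g r).2⟩ : B) = g r from Subtype.ext hu']
  exact neg_mem_iff.1 hyP

end Half

/-- The point of order two with parameter `z`. -/
theorem exists_twoPoint (hA : t ^ 3 - 1 ≠ 0) {z : F}
    (hz : (t ^ 3 - 1) * z ^ 3 - 3 * t * z + 2 = 0) :
    ∃ P : (hesseCurve t).toAffine.Point, P + P = 0 ∧ P ≠ 0 ∧ zOf P = z := by
  have hz0 : z ≠ 0 := by
    rintro rfl
    exact two_ne_zero (α := F) (by linear_combination hz)
  haveI : (hesseCurve t).IsElliptic := ⟨by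
    rw [hesseCurve_Δ]
    exact (isUnit_iff_ne_zero.2 (by norm_num)).mul (isUnit_iff_ne_zero.2 (pow_ne_zero _ hA))⟩
  have he : (hesseCurve t).toAffine.Equation (-(z ^ 2)⁻¹) (z ^ 3)⁻¹ := by
    rw [equation_hesse_iff]
    field_simp
    linear_combination hz
  have hneg : (z ^ 3)⁻¹ = (hesseCurve t).toAffine.negY (-(z ^ 2)⁻¹) (z ^ 3)⁻¹ := by
    rw [negY_hesse]
    field_simp
    linear_combination hz
  refine ⟨Affine.Point.some _ _ (Affine.equation_iff_nonsingular.1 he),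
    Affine.Point.add_self_of_Y_eq hneg, Affine.Point.some_ne_zero _, ?_⟩
  rw [zOf_some]
  field_simp

/-- A point of order two is determined by its parameter, one of the three roots. -/
theorem two_torsion_cases_hesse (hA : t ^ 3 - 1 ≠ 0) {u v : F} (hne : u ≠ v)
    (hu : (t ^ 3 - 1) * u ^ 3 - 3 * t * u + 2 = 0) (hv : (t ^ 3 - 1) * v ^ 3 - 3 * t * v + 2 = 0)
    {T : (hesseCurve t).toAffine.Point} (hT : T + T = 0) (hT0 : T ≠ 0) :
    (zOf T = u ∨ zOf T = v ∨ zOf T = -(u + v)) ∧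
      ∀ T' : (hesseCurve t).toAffine.Point, T' + T' = 0 → T' ≠ 0 → zOf T' = zOf T → T' = T := by
  have key : ∀ T : (hesseCurve t).toAffine.Point, T + T = 0 → T ≠ 0 → ∃ z, z ≠ 0 ∧
      (t ^ 3 - 1) * z ^ 3 - 3 * t * z + 2 = 0 ∧ zOf T = z ∧
        ∃ h, T = Affine.Point.some (-(z ^ 2)⁻¹) (z ^ 3)⁻¹ h := by
    intro T hT hT0
    rcases T with _ | ⟨x, y, h⟩
    · exact absurd rfl hT0
    have hneg : y = (hesseCurve t).toAffine.negY x y := by
      rw [add_eq_zero_iff_eq_neg, Affine.Point.neg_some, Affine.Point.some.injEq] at hT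
      exact hT.2
    obtain ⟨z, hz0, hroot, rfl, rfl⟩ := two_torsion_param two_ne_zero hA h.1 hneg
    exact ⟨z, hz0, hroot, by rw [zOf_some]; field_simp, h, rfl⟩
  obtain ⟨z, hz0, hroot, hz, hz'⟩ := key T hT hT0
  refine ⟨?_, fun T' h1 h2 h3 => ?_⟩
  · obtain ⟨hq, hp⟩ := two_torsion_vieta hne hu hv
    have hfac : (t ^ 3 - 1) * ((z - u) * (z - v) * (z + u + v)) = 0 := by
      linear_combination hroot - z * hq + hp
    rw [hz]
    rcases mul_eq_zero.1 ((mul_eq_zero.1 hfac).resolve_left hA) with h12 | h3'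
    · exact (mul_eq_zero.1 h12).imp (fun e => sub_eq_zero.1 e) fun e => Or.inl (sub_eq_zero.1 e)
    · exact Or.inr (Or.inr (by linear_combination h3'))
  · obtain ⟨z', -, -, hz2, h', rfl⟩ := key T' h1 h2
    obtain ⟨h, rfl⟩ := hz'
    obtain rfl : z' = z := by rw [← hz2, h3, hz]
    rfl

/-- Two chains over independent points of order two generate the points of two-power order. -/
theorem mem_closure_pair {G : Type*} [AddCommGroup G] {k : ℕ} {P Q : G}
    (hk : 0 < k) (h2 : ∀ T : G, T + T = 0 → T ∈ AddSubgroup.closure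
      ({2 ^ (k - 1) • P, 2 ^ (k - 1) • Q} : Set G)) :
    ∀ j ≤ k, ∀ T : G, 2 ^ j • T = 0 → ∃ a b : ℤ,
      T = a • (2 ^ (k - j) • P) + b • (2 ^ (k - j) • Q) := by
  intro j
  induction j with
  | zero => intro _ T hT; exact ⟨0, 0, by simpa using hT⟩
  | succ j ih =>
    intro hj T hT
    obtain ⟨a, b, hab⟩ := ih (by omega) (T + T) (by rw [← two_nsmul, ← mul_nsmul, ← pow_succ', hT])
    have e : k - j = k - (j + 1) + 1 := by omega
    have h0 := h2 (T - (a • (2 ^ (k - (j + 1)) • P) + b • (2 ^ (k - (j + 1)) • Q))) (by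
      rw [e, pow_succ', mul_nsmul', mul_nsmul', two_nsmul, two_nsmul, zsmul_add, zsmul_add] at hab
      rw [sub_add_sub_comm, hab]
      abel)
    obtain ⟨c, d, hcd⟩ := AddSubgroup.mem_closure_pair.1 h0
    have e' : (2 : ℕ) ^ (k - 1) = 2 ^ j * 2 ^ (k - (j + 1)) := by
      rw [← pow_add]; congr 1; omega
    rw [e', mul_nsmul', mul_nsmul', ← natCast_zsmul _ (2 ^ j), ← natCast_zsmul _ (2 ^ j), smul_smul,
      smul_smul, eq_sub_iff_add_eq] at hcd
    refine ⟨c * ((2 ^ j : ℕ) : ℤ) + a, d * ((2 ^ j : ℕ) : ℤ) + b, ?_⟩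
    rw [← hcd, add_smul, add_smul]
    abel

end Fermat.Agent.Carayol
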