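import Fermat.Agent.LL.Carayol.Two.Local
import Fermat.Agent.LL.Carayol.Two.Tor
import Fermat.Agent.Moduli.InteriorTwo

/-!
# The ring of two chains of halves is regular over two

Over `W[t, 1/(t³ - 1)]` adjoin the coordinates `z, u` of the multiples of two points `P, Q`: at a
maximal ideal over `2` containing `z(P)` there are two local generators and the ring is normal.
-/

set_option autoImplicit false
set_option linter.style.haveILetI false
set_option linter.unusedSectionVars false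

noncomputable section

namespace Fermat.Agent.Carayol

open Polynomial IsLocalRing WeierstrassCurve Fermat.Agent.EC Fermat.Agent.Moduli

variable {W : Type} [CommRing W] [IsDomain W] [IsDiscreteValuationRing W]
  [IsAlgClosed (ResidueField W)] {F : Type} [Field F] [CharZero F] [DecidableEq F]
  [Algebra (HesseBase W) F] [FaithfulSMul (HesseBase W) F]

local notation "tF" => algebraMap (HesseBase W) F (hesseVar W)

/-- The coordinates of the multiples of the two points. -/
def chainGens (k : ℕ) (P Q : (hesseCurve tF).toAffine.Point) : Set F :=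
  (Set.range fun i : Fin (k + 1) => zOf (2 ^ (i : ℕ) • P)) ∪
    (Set.range fun i : Fin (k + 1) => uOf (2 ^ (i : ℕ) • P)) ∪
    (Set.range fun i : Fin (k + 1) => zOf (2 ^ (i : ℕ) • Q)) ∪
    (Set.range fun i : Fin (k + 1) => uOf (2 ^ (i : ℕ) • Q))

/-- The ring they generate over the base. -/
abbrev chainRing (k : ℕ) (P Q : (hesseCurve tF).toAffine.Point) : Subalgebra (HesseBase W) F :=
  Algebra.adjoin (HesseBase W) (chainGens k P Q)

lemma disc_ne_base : (tF ^ 3 - 1 : F) ≠ 0 := by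
  rw [← map_pow, ← map_one (algebraMap (HesseBase W) F), ← map_sub]
  exact ((isUnit_hesseVar (W := W)).map _).ne_zero

lemma scal_of_sub_mem {W C : Type*} [CommRing W] [CommRing C] {ι : W →+* C} {K : Ideal C} {x : C}
    {w : W} (h : x - ι w ∈ K) : x ∈ scal ι K :=
  mem_scal.2 ⟨w, by rw [← neg_sub]; exact K.neg_mem h⟩

lemma exists_sub_mem_of_scal {W C : Type*} [CommRing W] [CommRing C] {ι : W →+* C} {K : Ideal C}
    {x : C} (h : x ∈ scal ι K) : ∃ w, x - ι w ∈ K := by
  obtain ⟨w, hw⟩ := mem_scal.1 h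
  exact ⟨w, by rw [← neg_sub]; exact K.neg_mem hw⟩

/-- Modulo the maximal ideal congruence to constants may be divided by units. -/
lemma scal_max_div {W C : Type*} [CommRing W] [CommRing C] [IsLocalRing C] {ι : W →+* C}
    (hιu : ∀ w, ¬ IsUnit w → ι w ∈ maximalIdeal C) {y x : C} (hy : y ∉ maximalIdeal C)
    (hys : y ∈ scal ι (maximalIdeal C)) (hyx : y * x ∈ scal ι (maximalIdeal C)) :
    x ∈ scal ι (maximalIdeal C) := by
  obtain ⟨w, hw⟩ := mem_scal.1 hys
  obtain ⟨w', hw'⟩ := mem_scal.1 hyx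
  have hu : IsUnit w := by
    by_contra hu
    refine hy ?_
    have := sub_mem (hιu w hu) hw
    rwa [sub_sub_cancel] at this
  obtain ⟨v, hv⟩ := hu.exists_left_inv
  refine mem_scal.2 ⟨v * w', ?_⟩
  have hv' : ι v * ι w = 1 := by rw [← map_mul, hv, map_one]
  rw [show ι (v * w') - x = ι v * (ι w' - y * x) - (ι v * (ι w - y)) * x by
    rw [map_mul]; linear_combination x * hv']
  exact sub_mem (Ideal.mul_mem_left _ _ hw') (Ideal.mul_mem_right _ _ (Ideal.mul_mem_left _ _ hw))

set_option maxHeartbeats 1000000 in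
/-- The two local generators, over any model of the local ring. -/
theorem chainRing_generators (hmax : maximalIdeal W = Ideal.span {(2 : W)}) (h20 : (2 : W) ≠ 0)
    {k : ℕ} (hk : 2 ≤ k) (P Q : (hesseCurve tF).toAffine.Point) (hP : 2 ^ k • P = 0)
    (hQ : 2 ^ k • Q = 0)
    (hsum : (tF ^ 3 - 1) * (zOf (2 ^ (k - 1) • P) ^ 2 +
      zOf (2 ^ (k - 1) • P) * zOf (2 ^ (k - 1) • Q) + zOf (2 ^ (k - 1) • Q) ^ 2) = 3 * tF)
    (hprod : (tF ^ 3 - 1) * (zOf (2 ^ (k - 1) • P) * zOf (2 ^ (k - 1) • Q) *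
      (zOf (2 ^ (k - 1) • P) + zOf (2 ^ (k - 1) • Q))) = 2)
    (n : Ideal (chainRing k P Q)) [hn : n.IsMaximal]
    (h2 : (2 : chainRing k P Q) ∈ n)
    (hPn : ∀ h : zOf P ∈ chainRing k P Q,
      (⟨zOf P, h⟩ : chainRing k P Q) ∈ n)
    (hQn : ∀ h1 h : _, (⟨zOf (2 ^ (k - 1) • Q), h1⟩ :
        chainRing k P Q) ∈ n →
      (⟨zOf Q, h⟩ : chainRing k P Q) ∈ n)
    {C : Type} [CommRing C] [IsLocalRing C] [IsNoetherianRing C] [Algebra (chainRing k P Q) C]
    [IsLocalization.AtPrime C n] [Algebra.IsIntegral (HesseBase W) (chainRing k P Q)] {c : W}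
    (hIc : n.under (HesseBase W) =
      Ideal.span {(2 : HesseBase W), hesseVar W - algebraMap W[X] (HesseBase W) (Polynomial.C c)})
    (hsplit : SplitsMod (n.under (HesseBase W))) :
    ∃ a b : chainRing k P Q, a ∈ n ∧ b ∈ n ∧ ∀ z ∈ n, ∃ s ∉ n, s * z ∈ Ideal.span {a, b} := by
  classical
  have hA := disc_ne_base (W := W) (F := F)
  have hmul : ∀ (R' : (hesseCurve tF).toAffine.Point) (i : ℕ), 2 ^ k • R' = 0 →
      2 ^ k • (2 ^ i • R') = 0 := fun R' i h => by
    rw [← mul_nsmul, mul_comm, mul_nsmul, h, nsmul_zero]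
  set I := n.under (HesseBase W)
  -- the local ring
  let al := algebraMap (chainRing k P Q) C
  have hmem : ∀ z, al z ∈ maximalIdeal C ↔ z ∈ n := fun z =>
    IsLocalization.AtPrime.to_map_mem_maximal_iff C n z
  let cW : W[X] →+* HesseBase W := algebraMap W[X] (HesseBase W)
  let ι : W →+* C := al.comp ((algebraMap (HesseBase W) (chainRing k P Q)).comp (cW.comp Polynomial.C))
  have hιm : ∀ w : W, ι w ∈ maximalIdeal C ↔ ¬ IsUnit w := fun w => by
    refine ⟨fun h hu => (maximalIdeal.isMaximal C).ne_top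
      (Ideal.eq_top_of_isUnit_mem _ h (hu.map ι)), fun hu => ?_⟩
    rw [← mem_nonunits_iff, ← mem_maximalIdeal, hmax, Ideal.mem_span_singleton] at hu
    obtain ⟨e, rfl⟩ := hu
    rw [map_mul, map_ofNat]
    refine Ideal.mul_mem_right _ _ ?_
    rw [← map_ofNat al 2, hmem]
    exact h2
  have hι : ∀ w, ι w ∈ maximalIdeal C → ∃ d, ι w = 2 * d := fun w hw => by
    have hu := (hιm w).1 hw
    rw [← mem_nonunits_iff, ← mem_maximalIdeal, hmax, Ideal.mem_span_singleton] at hu
    obtain ⟨e, rfl⟩ := hu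
    exact ⟨ι e, by rw [map_mul, map_ofNat]⟩
  set T : C := al (algebraMap (HesseBase W) (chainRing k P Q) (hesseVar W))
  have hTc : T - ι c ∈ maximalIdeal C := by
    rw [show T - ι c = al (algebraMap (HesseBase W) (chainRing k P Q) (hesseVar W) -
      algebraMap (HesseBase W) (chainRing k P Q) (cW (Polynomial.C c))) from (map_sub al _ _).symm,
      hmem]
    show algebraMap (HesseBase W) (chainRing k P Q) (hesseVar W) - algebraMap (HesseBase W) (chainRing k P Q) (cW (Polynomial.C c)) ∈ n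
    rw [← map_sub]
    show hesseVar W - cW (Polynomial.C c) ∈ I
    rw [hIc]; exact Ideal.subset_span (Or.inr rfl)
  have hAu : IsUnit (T ^ 3 - 1) := by
    have := ((isUnit_hesseVar (W := W)).map (algebraMap (HesseBase W) (chainRing k P Q))).map al
    rwa [map_sub, map_sub, map_pow, map_pow, map_one, map_one] at this
  -- images of the polynomials
  have hpoly : ∀ (U : Subring C), T ∈ U → (∀ w, ι w ∈ U) → ∀ f : W[X],
      al (algebraMap (HesseBase W) (chainRing k P Q) (cW f)) ∈ U := by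
    intro U hT hw f
    induction f using Polynomial.induction_on' with
    | add p q hp hq => simp only [map_add]; exact add_mem hp hq
    | monomial i a =>
      rw [← Polynomial.C_mul_X_pow_eq_monomial, map_mul, map_mul, map_mul, map_pow, map_pow, map_pow]
      exact mul_mem (hw a) (pow_mem hT i)
  -- residues are constants
  have hιu : ∀ w, ¬ IsUnit w → ι w ∈ maximalIdeal C := fun w => (hιm w).2
  have hnu : ∀ {y : C}, IsUnit y → y ∉ maximalIdeal C := fun hy h =>
    (maximalIdeal.isMaximal C).ne_top (Ideal.eq_top_of_isUnit_mem _ h hy)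
  have hTm : T ∈ scal ι (maximalIdeal C) := scal_of_sub_mem hTc
  have hdisc : ∀ m : ℕ, IsUnit (al (algebraMap (HesseBase W) (chainRing k P Q) (cW (hesseDisc W ^ m)))) :=
    fun m => by
      rw [map_pow cW]
      exact (((IsLocalization.Away.algebraMap_isUnit (S := HesseBase W) (hesseDisc W)).pow m).map
        (algebraMap (HesseBase W) (chainRing k P Q))).map al
  have hrk : ∀ x : C, ∃ w, x - ι w ∈ maximalIdeal C := by
    have hR : ∀ r : HesseBase W,
        al (algebraMap (HesseBase W) (chainRing k P Q) r) ∈ scal ι (maximalIdeal C) := by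
      intro r
      obtain ⟨P', m, hP'⟩ := exists_hesseBase_mul r
      refine scal_max_div hιu (hnu (hdisc m)) (hpoly _ hTm (fun w => const_mem_scal _ _ w) _) ?_
      rw [← map_mul, ← map_mul, mul_comm (cW (hesseDisc W ^ m)), hP']
      exact hpoly _ hTm (fun w => const_mem_scal _ _ w) P'
    have hS : ∀ s : chainRing k P Q, al s ∈ scal ι (maximalIdeal C) := by
      intro s
      obtain ⟨r, hr⟩ := exists_sub_mem_of_splitsMod hsplit n (fun r hr => hr) s
      rw [show al s = al (s - algebraMap (HesseBase W) (chainRing k P Q) r) +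
        al (algebraMap (HesseBase W) (chainRing k P Q) r) by rw [← map_add, sub_add_cancel]]
      exact add_mem (mem_scal_of_mem ((hmem _).2 hr)) (hR r)
    intro x
    obtain ⟨⟨s, d⟩, e⟩ := IsLocalization.surj n.primeCompl x
    have h1 : x ∈ scal ι (maximalIdeal C) := by
      refine scal_max_div hιu (fun h => d.2 ((hmem _).1 h)) (hS d) ?_
      rw [mul_comm, e]
      exact hS s
    exact exists_sub_mem_of_scal h1
  -- the chains
  have hg : ∀ i : ℕ, zOf (2 ^ (k - i) • P) ∈ (chainRing k P Q) ∧ uOf (2 ^ (k - i) • P) ∈ (chainRing k P Q) ∧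
      zOf (2 ^ (k - i) • Q) ∈ (chainRing k P Q) ∧ uOf (2 ^ (k - i) • Q) ∈ (chainRing k P Q) := fun i =>
    have hi : k - i < k + 1 := by omega
    ⟨Algebra.subset_adjoin (Or.inl (Or.inl (Or.inl ⟨⟨k - i, hi⟩, rfl⟩))),
      Algebra.subset_adjoin (Or.inl (Or.inl (Or.inr ⟨⟨k - i, hi⟩, rfl⟩))),
      Algebra.subset_adjoin (Or.inl (Or.inr ⟨⟨k - i, hi⟩, rfl⟩)),
      Algebra.subset_adjoin (Or.inr ⟨⟨k - i, hi⟩, rfl⟩)⟩
  let zP : ℕ → C := fun i => al ⟨_, (hg i).1⟩
  let uP : ℕ → C := fun i => al ⟨_, (hg i).2.1⟩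
  let zQ : ℕ → C := fun i => al ⟨_, (hg i).2.2.1⟩
  let uQ : ℕ → C := fun i => al ⟨_, (hg i).2.2.2⟩
  have hstep : ∀ (R' : (hesseCurve tF).toAffine.Point), 2 ^ k • R' = 0 → ∀ i < k,
      IsDouble tF (zOf (2 ^ (k - (i + 1)) • R')) (uOf (2 ^ (k - (i + 1)) • R'))
        (zOf (2 ^ (k - i) • R')) (uOf (2 ^ (k - i) • R')) := fun R' hR i hi => by
    have e : 2 ^ (k - i) • R' = 2 ^ (k - (i + 1)) • R' + 2 ^ (k - (i + 1)) • R' := by
      rw [← add_nsmul, ← two_mul, ← pow_succ']
      congr 2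
      omega
    rw [e]
    exact (isDouble_of_point hA _ (hmul R' _ hR)).1
  have hC : ∀ (t z u z' u' : chainRing k P Q),
      IsDouble (t : F) (z : F) (u : F) (z' : F) (u' : F) →
      IsDouble (al t) (al z) (al u) (al z') (al u') := fun t z u z' u' h =>
    have h' : IsDouble t z u z' u' :=
      IsDouble.of_map (chainRing k P Q).val.toRingHom Subtype.val_injective h
    h'.map (S := C) al
  have H : Chains T k zP uP zQ uQ :=
    { stepP := fun i hi => hC (algebraMap (HesseBase W) (chainRing k P Q) (hesseVar W))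
        ⟨_, (hg (i + 1)).1⟩ ⟨_, (hg (i + 1)).2.1⟩ ⟨_, (hg i).1⟩ ⟨_, (hg i).2.1⟩ (hstep P hP i hi)
      stepQ := fun i hi => hC (algebraMap (HesseBase W) (chainRing k P Q) (hesseVar W))
        ⟨_, (hg (i + 1)).2.2.1⟩ ⟨_, (hg (i + 1)).2.2.2⟩ ⟨_, (hg i).2.2.1⟩ ⟨_, (hg i).2.2.2⟩
        (hstep Q hQ i hi)
      sum := by
        have := congrArg al (Subtype.ext hsum : (algebraMap (HesseBase W) (chainRing k P Q) (hesseVar W) ^ 3 - 1) *
          ((⟨_, (hg 1).1⟩ : (chainRing k P Q)) ^ 2 + ⟨_, (hg 1).1⟩ * ⟨_, (hg 1).2.2.1⟩ +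
            (⟨_, (hg 1).2.2.1⟩ : (chainRing k P Q)) ^ 2) = 3 * algebraMap (HesseBase W) (chainRing k P Q) (hesseVar W))
        simpa only [map_mul, map_sub, map_add, map_pow, map_one, map_ofNat] using this
      prod := by
        have := congrArg al (Subtype.ext hprod : (algebraMap (HesseBase W) (chainRing k P Q) (hesseVar W) ^ 3 - 1) *
          ((⟨_, (hg 1).1⟩ : (chainRing k P Q)) * ⟨_, (hg 1).2.2.1⟩ *
            ((⟨_, (hg 1).1⟩ : (chainRing k P Q)) + ⟨_, (hg 1).2.2.1⟩)) = 2)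
        simpa only [map_mul, map_sub, map_add, map_pow, map_one, map_ofNat] using this
      uP_zero := (congrArg al (Subtype.ext (by
        show uOf (2 ^ (k - 0) • P) = 0
        rw [Nat.sub_zero, hP, uOf_zero]) : (⟨_, (hg 0).2.1⟩ : (chainRing k P Q)) = 0)).trans (map_zero al)
      uQ_zero := (congrArg al (Subtype.ext (by
        show uOf (2 ^ (k - 0) • Q) = 0
        rw [Nat.sub_zero, hQ, uOf_zero]) : (⟨_, (hg 0).2.2.2⟩ : (chainRing k P Q)) = 0)).trans (map_zero al)
      zP_zero := (congrArg al (Subtype.ext (by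
        show zOf (2 ^ (k - 0) • P) = 0
        rw [Nat.sub_zero, hP, zOf_zero]) : (⟨_, (hg 0).1⟩ : (chainRing k P Q)) = 0)).trans (map_zero al)
      zQ_zero := (congrArg al (Subtype.ext (by
        show zOf (2 ^ (k - 0) • Q) = 0
        rw [Nat.sub_zero, hQ, zOf_zero]) : (⟨_, (hg 0).2.2.1⟩ : (chainRing k P Q)) = 0)).trans (map_zero al) }
  have e0 : 2 ^ (k - k) • P = P ∧ 2 ^ (k - k) • Q = Q := by simp
  have h2C : (2 : C) ∈ maximalIdeal C := by rw [← map_ofNat al 2, hmem]; exact h2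
  have hPC : zP k ∈ maximalIdeal C := by
    rw [hmem]
    have h : zOf P ∈ (chainRing k P Q) := by have := (hg k).1; rwa [show zOf (2 ^ (k - k) • P) = zOf P from congrArg zOf e0.1] at this
    rw [show (⟨_, (hg k).1⟩ : (chainRing k P Q)) = ⟨zOf P, h⟩ from Subtype.ext (congrArg zOf e0.1)]
    exact hPn h
  have hQC : zQ 1 ∈ maximalIdeal C → zQ k ∈ maximalIdeal C := fun h1 => by
    rw [hmem] at h1 ⊢
    have h : zOf Q ∈ (chainRing k P Q) := by have := (hg k).2.2.1; rwa [show zOf (2 ^ (k - k) • Q) = zOf Q from congrArg zOf e0.2] at this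
    rw [show (⟨_, (hg k).2.2.1⟩ : (chainRing k P Q)) = ⟨zOf Q, h⟩ from Subtype.ext (congrArg zOf e0.2)]
    exact hQn _ h h1
  obtain ⟨a, b, ha, hb, h2K, hTs, hgs⟩ := exists_parameters hι hrk hk h2C
    (fun h => (maximalIdeal.isMaximal C).ne_top (Ideal.eq_top_of_isUnit_mem _ h hAu)) H hPC hQC
  set K := Ideal.span {a, b} ⊔ maximalIdeal C * maximalIdeal C
  have hKm : K ≤ maximalIdeal C :=
    sup_le (Ideal.span_le.2 (by rintro x (rfl | rfl); exacts [ha, hb])) Ideal.mul_le_left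
  have hSs : ∀ s : (chainRing k P Q), al s ∈ scal ι K := by
    have hR : ∀ r : HesseBase W, al (algebraMap (HesseBase W) (chainRing k P Q) r) ∈ scal ι K := by
      intro r
      obtain ⟨P', m, hP'⟩ := exists_hesseBase_mul r
      have h1 := hpoly _ hTs (fun w => const_mem_scal ι K w) P'
      have h2' := hpoly _ hTs (fun w => const_mem_scal ι K w) (hesseDisc W ^ m)
      refine scal_div hι hrk hKm h2K (hnu (hdisc m)) h2' ?_
      rw [← map_mul, ← map_mul, mul_comm (cW (hesseDisc W ^ m)), hP']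
      exact h1
    rintro ⟨x, hx⟩
    induction hx using Algebra.adjoin_induction with
    | mem x hx =>
      have hki : ∀ i : Fin (k + 1), k - (k - (i : ℕ)) = i := fun i => by omega
      rcases hx with ((⟨i, rfl⟩ | ⟨i, rfl⟩) | ⟨i, rfl⟩) | ⟨i, rfl⟩ <;>
        have := hgs (k - i) (Nat.sub_le _ _)
      · convert this.1 using 3; simp only [hki i]
      · convert this.2.1 using 3; simp only [hki i]
      · convert this.2.2.1 using 3; simp only [hki i]
      · convert this.2.2.2 using 3; simp only [hki i]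
    | algebraMap r => exact hR r
    | add x y hx hy h h' =>
      rw [show (⟨x + y, _⟩ : (chainRing k P Q)) = ⟨x, hx⟩ + ⟨y, hy⟩ from rfl, map_add]
      exact add_mem h h'
    | mul x y hx hy h h' =>
      rw [show (⟨x * y, _⟩ : (chainRing k P Q)) = ⟨x, hx⟩ * ⟨y, hy⟩ from rfl, map_mul]
      exact mul_mem h h'
  have hmax' := maximalIdeal_eq_of_scal hι ha hb h2K fun x => by
    obtain ⟨⟨s, d⟩, e⟩ := IsLocalization.surj n.primeCompl x
    refine scal_div hι hrk hKm h2K (fun h => d.2 ((hmem _).1 h)) (hSs d) ?_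
    rw [mul_comm, e]
    exact hSs s
  obtain ⟨⟨a₀, da⟩, ea⟩ := IsLocalization.surj n.primeCompl a
  obtain ⟨⟨b₀, db⟩, eb⟩ := IsLocalization.surj n.primeCompl b
  have hu : ∀ d : n.primeCompl, IsUnit (al (d : (chainRing k P Q))) := fun d => IsLocalization.map_units C d
  have ha₀ : a₀ ∈ n := (hmem a₀).1 (ea ▸ Ideal.mul_mem_right _ _ ha)
  have hb₀ : b₀ ∈ n := (hmem b₀).1 (eb ▸ Ideal.mul_mem_right _ _ hb)
  have hgen : ∀ z ∈ n, ∃ s ∉ n, s * z ∈ Ideal.span {a₀, b₀} := by
    intro z hz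
    have h1 : al z ∈ (Ideal.span {a₀, b₀}).map al := by
      have h := (hmem z).2 hz
      rw [hmax'] at h
      refine (Ideal.span_le.2 ?_) h
      rw [Ideal.map_span, Set.image_pair, ← ea, ← eb]
      rintro x (rfl | rfl)
      · exact (Ideal.mul_unit_mem_iff_mem _ (hu da)).1 (Ideal.subset_span (Or.inl rfl))
      · exact (Ideal.mul_unit_mem_iff_mem _ (hu db)).1 (Ideal.subset_span (Or.inr rfl))
    rwa [IsLocalization.algebraMap_mem_map_algebraMap_iff n.primeCompl] at h1
  exact ⟨a₀, b₀, ha₀, hb₀, hgen⟩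

set_option maxHeartbeats 1000000 in
/-- A maximal ideal over `2` containing `z(P)`: two local generators, and the local ring is
normal. -/
theorem chainRing_regular (hmax : maximalIdeal W = Ideal.span {(2 : W)}) (h20 : (2 : W) ≠ 0)
    {k : ℕ} (hk : 2 ≤ k) (P Q : (hesseCurve tF).toAffine.Point) (hP : 2 ^ k • P = 0)
    (hQ : 2 ^ k • Q = 0)
    (hsum : (tF ^ 3 - 1) * (zOf (2 ^ (k - 1) • P) ^ 2 +
      zOf (2 ^ (k - 1) • P) * zOf (2 ^ (k - 1) • Q) + zOf (2 ^ (k - 1) • Q) ^ 2) = 3 * tF)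
    (hprod : (tF ^ 3 - 1) * (zOf (2 ^ (k - 1) • P) * zOf (2 ^ (k - 1) • Q) *
      (zOf (2 ^ (k - 1) • P) + zOf (2 ^ (k - 1) • Q))) = 2)
    (n : Ideal (chainRing k P Q)) [hn : n.IsMaximal]
    (h2 : (2 : chainRing k P Q) ∈ n)
    (hPn : ∀ h : zOf P ∈ chainRing k P Q,
      (⟨zOf P, h⟩ : chainRing k P Q) ∈ n)
    (hQn : ∀ h1 h : _, (⟨zOf (2 ^ (k - 1) • Q), h1⟩ :
        chainRing k P Q) ∈ n →
      (⟨zOf Q, h⟩ : chainRing k P Q) ∈ n) :
    ∃ a b : chainRing k P Q, a ∈ n ∧ b ∈ n ∧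
      (∀ z ∈ n, ∃ s ∉ n, s * z ∈ Ideal.span {a, b}) ∧
      ∀ x : F, _root_.IsIntegral (HesseBase W) x →
        (∃ u v : chainRing k P Q, v ≠ 0 ∧ (v : F) * x = u) →
        ∃ s ∉ n, ∃ y : chainRing k P Q, (s : F) * x = y := by
  classical
  have hA := disc_ne_base (W := W) (F := F)
  -- integrality
  have hmul : ∀ (R' : (hesseCurve tF).toAffine.Point) (i : ℕ), 2 ^ k • R' = 0 →
      2 ^ k • (2 ^ i • R') = 0 := fun R' i h => by
    rw [← mul_nsmul, mul_comm, mul_nsmul, h, nsmul_zero]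
  have hint : ∀ g ∈ (chainGens k P Q), _root_.IsIntegral (HesseBase W) g := by
    rintro g (((⟨i, rfl⟩ | ⟨i, rfl⟩) | ⟨i, rfl⟩) | ⟨i, rfl⟩)
    · exact (isIntegral_uz _ rfl isUnit_hesseVar k _ (hmul P i hP)).2
    · exact (isIntegral_uz _ rfl isUnit_hesseVar k _ (hmul P i hP)).1
    · exact (isIntegral_uz _ rfl isUnit_hesseVar k _ (hmul Q i hQ)).2
    · exact (isIntegral_uz _ rfl isUnit_hesseVar k _ (hmul Q i hQ)).1
  have hfin : (chainGens k P Q).Finite := (((Set.finite_range _).union (Set.finite_range _)).union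
    (Set.finite_range _)).union (Set.finite_range _)
  haveI : Module.Finite (HesseBase W) (chainRing k P Q) := Module.Finite.iff_fg.2 (fg_adjoin_of_finite hfin hint)
  haveI : IsNoetherianRing (chainRing k P Q) := IsNoetherianRing.of_finite (HesseBase W) (chainRing k P Q)
  haveI : IsNoetherianRing (Localization.AtPrime n) :=
    IsLocalization.isNoetherianRing n.primeCompl _ inferInstance
  haveI : Algebra.IsIntegral (HesseBase W) (chainRing k P Q) := Algebra.IsIntegral.of_finite _ _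
  haveI : FaithfulSMul (HesseBase W) (chainRing k P Q) := (faithfulSMul_iff_algebraMap_injective _ _).2
    fun x y e => FaithfulSMul.algebraMap_injective (HesseBase W) F (congrArg Subtype.val e)
  set I := n.under (HesseBase W)
  haveI : I.IsMaximal := Ideal.isMaximal_comap_of_isIntegral_of_isMaximal n
  have hI2 : (2 : HesseBase W) ∈ I := by
    show algebraMap (HesseBase W) (chainRing k P Q) 2 ∈ n
    rwa [map_ofNat]
  obtain ⟨c, hIc, hsplit, P₀, hP₀, hP₀0, hP₀I⟩ := exists_hessePoint hmax h20 I hI2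
  haveI := hP₀
  haveI : n.LiesOver I := ⟨rfl⟩
  obtain ⟨Pn, hPn', hPp, hPo⟩ := Ideal.exists_ideal_lt_liesOver_of_lt n hP₀I
  haveI := hPp
  have hPn0 : Pn ≠ ⊥ := by
    intro h
    apply hP₀0
    rw [hPo.over, h]
    exact Ideal.comap_bot_of_injective _ (FaithfulSMul.algebraMap_injective (HesseBase W) (chainRing k P Q))
  obtain ⟨a₀, b₀, ha₀, hb₀, hgen⟩ := chainRing_generators hmax h20 hk P Q hP hQ hsum hprod n h2 hPn
    hQn (C := Localization.AtPrime n) (c := c) hIc hsplit
  refine ⟨a₀, b₀, ha₀, hb₀, hgen, fun x hx hfr => ?_⟩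
  obtain ⟨s, hs, y, hy⟩ := exists_mul_eq_algebraMap_of_isIntegral (F := F) n ha₀ hb₀ hgen hPn0 hPn'
    (x := x) hx.tower_top hfr
  exact ⟨s, hs, y, hy⟩

end Fermat.Agent.Carayol
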