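import Fermat.Agent.Moduli.TwoCurve

/-!
# Doubling on the level three family in formal coordinates

For a point `(x, y)` of `y² + 3t xy + (t³ - 1) y = x³` put `z = -x/y` and `u = 1/x`; both are zero
at the origin. The relations between the coordinates of `T` and `2T` are polynomial and hold at
all points of two-power order.
-/

set_option autoImplicit false
set_option linter.unusedSectionVars false

noncomputable section

namespace Fermat.Agent.Carayol

open WeierstrassCurve Fermat.Agent.Moduli

section Poly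

variable {R : Type*} [CommRing R]

/-- `z² / u`. -/
def twoR (t z u : R) : R := 1 - 3 * t * z - (t ^ 3 - 1) * z * u

/-- The denominator of the tangent. -/
def twoD (t z u : R) : R := -1 - twoR t z u

/-- The numerator of the tangent. -/
def twoL (t z u : R) : R := 3 * twoR t z u + 3 * t * z

/-- The numerator of the abscissa of the double. -/
def twoX (t z u : R) : R :=
  twoL t z u ^ 2 + 3 * t * twoL t z u * z * twoD t z u - 2 * twoR t z u * twoD t z u ^ 2

/-- The numerator of the ordinate of the double. -/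
def twoY (t z u : R) : R :=
  -(twoL t z u + 3 * t * z * twoD t z u) * twoX t z u +
    twoR t z u * (twoD t z u + twoL t z u) * twoD t z u ^ 2 -
    (t ^ 3 - 1) * z ^ 3 * twoD t z u ^ 3

/-- The relations between the coordinates of a point and of its double. -/
structure IsDouble (t z u z' u' : R) : Prop where
  curve : u * twoR t z u = z ^ 2
  double_z : z' * twoY t z u = -(z * twoD t z u * twoX t z u)
  double_u : u' * twoX t z u = (z * twoD t z u) ^ 2

lemma map_twoR {S : Type*} [CommRing S] (f : R →+* S) (t z u : R) :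
    f (twoR t z u) = twoR (f t) (f z) (f u) := by simp [twoR, map_ofNat]

lemma map_twoD {S : Type*} [CommRing S] (f : R →+* S) (t z u : R) :
    f (twoD t z u) = twoD (f t) (f z) (f u) := by simp [twoD, map_twoR]

lemma map_twoL {S : Type*} [CommRing S] (f : R →+* S) (t z u : R) :
    f (twoL t z u) = twoL (f t) (f z) (f u) := by simp [twoL, map_twoR, map_ofNat]

lemma map_twoX {S : Type*} [CommRing S] (f : R →+* S) (t z u : R) :
    f (twoX t z u) = twoX (f t) (f z) (f u) := by
  simp [twoX, map_twoR, map_twoD, map_twoL, map_ofNat]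

lemma map_twoY {S : Type*} [CommRing S] (f : R →+* S) (t z u : R) :
    f (twoY t z u) = twoY (f t) (f z) (f u) := by
  simp [twoY, map_twoR, map_twoD, map_twoL, map_twoX, map_ofNat]

lemma IsDouble.map {S : Type*} [CommRing S] (f : R →+* S) {t z u z' u' : R}
    (h : IsDouble t z u z' u') : IsDouble (f t) (f z) (f u) (f z') (f u') where
  curve := by rw [← map_twoR, ← map_mul, h.curve, map_pow]
  double_z := by
    rw [← map_twoY, ← map_mul, h.double_z, map_neg, map_mul, map_mul, map_twoD, map_twoX]
  double_u := by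
    rw [← map_twoX, ← map_mul, h.double_u, map_pow, map_mul, map_twoD]

lemma IsDouble.of_map {S : Type*} [CommRing S] (f : R →+* S) (hf : Function.Injective f)
    {t z u z' u' : R} (h : IsDouble (f t) (f z) (f u) (f z') (f u')) : IsDouble t z u z' u' where
  curve := hf (by rw [map_mul, map_twoR, h.curve, map_pow])
  double_z := hf (by rw [map_mul, map_twoY, h.double_z, map_neg, map_mul, map_mul, map_twoD,
    map_twoX])
  double_u := hf (by rw [map_mul, map_twoX, h.double_u, map_pow, map_mul, map_twoD])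

end Poly

section Field

variable {F : Type*} [Field F] {t : F}

/-- `-x/y`, zero at the origin. -/
def zOf : (hesseCurve t).toAffine.Point → F
  | .zero => 0
  | .some x y _ => -x / y

/-- `1/x`, zero at the origin. -/
def uOf : (hesseCurve t).toAffine.Point → F
  | .zero => 0
  | .some x _ _ => x⁻¹

@[simp] lemma zOf_zero : zOf (0 : (hesseCurve t).toAffine.Point) = 0 := rfl

@[simp] lemma uOf_zero : uOf (0 : (hesseCurve t).toAffine.Point) = 0 := rfl

@[simp] lemma zOf_some {x y : F} (h : (hesseCurve t).toAffine.Nonsingular x y) :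
    zOf (Affine.Point.some x y h) = -x / y := rfl

@[simp] lemma uOf_some {x y : F} (h : (hesseCurve t).toAffine.Nonsingular x y) :
    uOf (Affine.Point.some x y h) = x⁻¹ := rfl

lemma equation_of_point {x y : F} (h : (hesseCurve t).toAffine.Nonsingular x y) :
    y ^ 2 + 3 * t * x * y + (t ^ 3 - 1) * y = x ^ 3 := equation_hesse_iff.1 h.1

lemma y_ne_zero_of_x_ne_zero {x y : F} (h : (hesseCurve t).toAffine.Nonsingular x y)
    (hx : x ≠ 0) : y ≠ 0 := by
  rintro rfl
  exact hx (eq_zero_of_pow_eq_zero (n := 3) (by linear_combination -equation_of_point h))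

lemma curve_of_point {x y : F} (h : (hesseCurve t).toAffine.Nonsingular x y) (hx : x ≠ 0) :
    x⁻¹ * twoR t (-x / y) x⁻¹ = (-x / y) ^ 2 := by
  have hy := y_ne_zero_of_x_ne_zero h hx
  simp only [twoR]
  field_simp
  linear_combination equation_of_point h

variable [DecidableEq F]

lemma three_nsmul_of_x_eq_zero [CharZero F] (hA : t ^ 3 - 1 ≠ 0) {x y : F}
    (h : (hesseCurve t).toAffine.Nonsingular x y) (hx : x = 0) :
    3 • Affine.Point.some x y h = 0 := by
  subst hx
  have he := equation_of_point h
  have hy : y = 0 ∨ y = -(t ^ 3 - 1) := by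
    rcases mul_eq_zero.1 (show y * (y + (t ^ 3 - 1)) = 0 by linear_combination he) with e | e
    · exact Or.inl e
    · exact Or.inr (by linear_combination e)
  have hne : y ≠ (hesseCurve t).toAffine.negY 0 y := by
    rw [negY_hesse]
    rcases hy with rfl | rfl <;> intro e <;> apply hA
    · linear_combination e
    · linear_combination -e
  have h2 : Affine.Point.some 0 y h + Affine.Point.some 0 y h = -Affine.Point.some 0 y h := by
    rw [Affine.Point.add_self_of_Y_ne hne, Affine.Point.neg_some, Affine.Point.some.injEq,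
      Affine.slope_of_Y_ne rfl hne]
    rcases hy with rfl | rfl
    · constructor <;> simp [Affine.addX, Affine.addY, Affine.negAddY, Affine.negY, hesseCurve]
    · have e : (t ^ 3 - 1) ≠ 0 := hA
      constructor <;>
      · simp only [Affine.addX, Affine.addY, Affine.negAddY, Affine.negY, hesseCurve]
        field_simp
        ring
  rw [show (3 : ℕ) = 2 + 1 from rfl, succ_nsmul, two_nsmul, h2, neg_add_cancel]

/-- A nonzero point of two-power order has nonzero coordinates. -/
lemma x_ne_zero_of_two_pow [CharZero F] (hA : t ^ 3 - 1 ≠ 0) {x y : F}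
    (h : (hesseCurve t).toAffine.Nonsingular x y) {j : ℕ}
    (hT : 2 ^ j • Affine.Point.some x y h = 0) : x ≠ 0 := by
  intro hx
  have h3 := three_nsmul_of_x_eq_zero hA h hx
  have hc : Nat.Coprime (2 ^ j) 3 := Nat.Coprime.pow_left _ (by norm_num)
  have h1 := addOrderOf_dvd_of_nsmul_eq_zero hT
  have h3' := addOrderOf_dvd_of_nsmul_eq_zero h3
  exact Affine.Point.some_ne_zero h
    (AddMonoid.addOrderOf_eq_one_iff.1 (Nat.eq_one_of_dvd_coprimes hc h1 h3'))

/-- The coordinates of a point and of its double. -/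
theorem isDouble_of_point [CharZero F] (hA : t ^ 3 - 1 ≠ 0)
    (T : (hesseCurve t).toAffine.Point) {j : ℕ} (hT : 2 ^ j • T = 0) :
    IsDouble t (zOf T) (uOf T) (zOf (T + T)) (uOf (T + T)) ∧
      uOf (T + T) * (1 - 3 * t * (t ^ 3 - 1) * uOf T ^ 2 - 2 * (t ^ 3 - 1) ^ 2 * uOf T ^ 3) =
        uOf T * (4 + 9 * t ^ 2 * uOf T + 6 * t * (t ^ 3 - 1) * uOf T ^ 2 +
          (t ^ 3 - 1) ^ 2 * uOf T ^ 3) := by
  rcases T with _ | ⟨x, y, h⟩
  · rw [← Affine.Point.zero_def, add_zero, zOf_zero, uOf_zero]
    exact ⟨⟨by simp, by simp, by simp⟩, by simp⟩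
  have hx : x ≠ 0 := x_ne_zero_of_two_pow hA h hT
  have hy := y_ne_zero_of_x_ne_zero h hx
  have he := equation_of_point h
  have hc : twoR t (-x / y) x⁻¹ = x ^ 3 / y ^ 2 := by
    have := curve_of_point h hx
    field_simp at this ⊢
    linear_combination this
  have hD : twoD t (-x / y) x⁻¹ = -(2 * y + 3 * t * x + (t ^ 3 - 1)) / y := by
    simp only [twoD, twoR]
    field_simp
    ring
  set D₀ := 2 * y + 3 * t * x + (t ^ 3 - 1) with hD₀
  set L₀ := 3 * x ^ 2 - 3 * t * y with hL₀
  have hL : twoL t (-x / y) x⁻¹ = x * L₀ / y ^ 2 := by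
    simp only [twoL, hc, hL₀]
    field_simp
    ring
  by_cases hne : y = (hesseCurve t).toAffine.negY x y
  · have h0 : Affine.Point.some x y h + Affine.Point.some x y h = 0 :=
      Affine.Point.add_self_of_Y_eq hne
    have hD0 : D₀ = 0 := by rw [hD₀, negY_hesse] at *; linear_combination hne
    refine ⟨⟨by simpa using curve_of_point h hx, ?_, ?_⟩, ?_⟩
    · rw [h0]; simp [hD, hD0]
    · rw [h0]; simp [hD, hD0]
    · rw [h0, uOf_zero, zero_mul, uOf_some]
      field_simp
      linear_combination (-D₀) * hD0 + (4 : F) * he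
  · have hD0 : D₀ ≠ 0 := fun e => hne (by rw [negY_hesse, hD₀] at *; linear_combination e)
    have hsum := Affine.Point.add_self_of_Y_ne (h₁ := h) hne
    rcases e2 : Affine.Point.some x y h + Affine.Point.some x y h with _ | ⟨x', y', h'⟩
    · exact absurd (hsum.symm.trans e2) (Affine.Point.some_ne_zero _)
    have h2 := hsum.symm.trans e2
    rw [Affine.Point.some.injEq] at h2
    have hx' : x' ≠ 0 := x_ne_zero_of_two_pow hA h' (j := j) (by
      rw [← e2, nsmul_add, hT, add_zero])
    have hy' := y_ne_zero_of_x_ne_zero h' hx'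
    set sl := (hesseCurve t).toAffine.slope x x y y with hsl
    have hsD : sl * D₀ = L₀ := by
      rw [hsl, Affine.slope_of_Y_ne rfl hne, negY_hesse]
      rw [show y - (-y - 3 * t * x - (t ^ 3 - 1)) = D₀ by rw [hD₀]; ring, div_mul_cancel₀ _ hD0, hL₀]
      simp only [hesseCurve]
      ring
    have ex' : x' = sl ^ 2 + 3 * t * sl - 2 * x := by
      rw [← h2.1]; simp only [Affine.addX, hesseCurve]; ring
    have ey' : y' = -(sl * (x' - x) + y) - 3 * t * x' - (t ^ 3 - 1) := by
      rw [← h2.2, ex']; simp only [Affine.addY, Affine.negAddY, Affine.negY, Affine.addX, hesseCurve]; ring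
    have ex : x' * D₀ ^ 2 = L₀ ^ 2 + 3 * t * L₀ * D₀ - 2 * x * D₀ ^ 2 := by
      rw [ex', ← hsD]; ring
    have ey : y' * D₀ ^ 3 = -(L₀ + 3 * t * D₀) * (x' * D₀ ^ 2) - (y * D₀ - L₀ * x) * D₀ ^ 2 -
        (t ^ 3 - 1) * D₀ ^ 3 := by
      rw [ey', ← hsD]; ring
    have hX : twoX t (-x / y) x⁻¹ = x ^ 2 / y ^ 4 * (x' * D₀ ^ 2) := by
      rw [ex, twoX, hc, hD, hL]
      field_simp
    have hY : twoY t (-x / y) x⁻¹ = x ^ 3 / y ^ 6 * (y' * D₀ ^ 3) := by
      rw [twoY, hX, hc, hD, hL, ey]
      field_simp
      ring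
    refine ⟨⟨by simpa using curve_of_point h hx, ?_, ?_⟩, ?_⟩
    · simp only [zOf_some, uOf_some, hX, hY, hD]
      field_simp
    · simp only [zOf_some, uOf_some, hX, hD]
      field_simp
    · simp only [uOf_some]
      have hDsq : D₀ ^ 2 = 4 * x ^ 3 + 9 * t ^ 2 * x ^ 2 + 6 * t * (t ^ 3 - 1) * x +
          (t ^ 3 - 1) ^ 2 := by
        rw [hD₀]; linear_combination (4 : F) * he
      have hN : x' * D₀ ^ 2 = x ^ 4 - 3 * t * (t ^ 3 - 1) * x ^ 2 - 2 * (t ^ 3 - 1) ^ 2 * x := by
        rw [ex, hDsq]
        simp only [hL₀, hD₀]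
        linear_combination (-9 * t ^ 2 : F) * he
      rw [hDsq] at hN
      field_simp
      linear_combination -hN

end Field

end Fermat.Agent.Carayol
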