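import Fermat.Agent.LL.Carayol.Two.Double
import Mathlib.RingTheory.LocalRing.ResidueField.Basic
import Mathlib.RingTheory.Nakayama

/-!
# Parameters at a closed point over two in full two-power level

In a local ring with constants `W` the coordinates of two chains of halves are congruent to
constants modulo two parameters and the square of the maximal ideal: at an ordinary point the
formal coordinate of the top of the first chain and the abscissa of the top of the second, at a
supersingular point the two formal coordinates.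
-/

set_option autoImplicit false
set_option linter.unusedSectionVars false

noncomputable section

namespace Fermat.Agent.Carayol

open IsLocalRing Fermat.Agent.Moduli

variable {W C : Type*} [CommRing W] [CommRing C]

/-- The elements congruent to a constant modulo `K`. -/
def scal (ι : W →+* C) (K : Ideal C) : Subring C :=
  (((Ideal.Quotient.mk K).comp ι).range).comap (Ideal.Quotient.mk K)

lemma mem_scal {ι : W →+* C} {K : Ideal C} {x : C} : x ∈ scal ι K ↔ ∃ w, ι w - x ∈ K := by
  simp [scal, RingHom.mem_range, Ideal.Quotient.eq]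

lemma const_mem_scal (ι : W →+* C) (K : Ideal C) (w : W) : ι w ∈ scal ι K :=
  mem_scal.2 ⟨w, by simp⟩

lemma mem_scal_of_mem {ι : W →+* C} {K : Ideal C} {x : C} (h : x ∈ K) : x ∈ scal ι K :=
  mem_scal.2 ⟨0, by simpa using h⟩

variable [IsLocalRing C] {ι : W →+* C} {K : Ideal C}
  (hι : ∀ w, ι w ∈ maximalIdeal C → ∃ d, ι w = 2 * d)

include hι in
/-- A congruent constant in the maximal ideal is divisible by two. -/
lemma mem_of_scal_of_mem (hK : K ≤ maximalIdeal C) (h2 : (2 : C) ∈ K) {x : C}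
    (hx : x ∈ scal ι K) (hm : x ∈ maximalIdeal C) : x ∈ K := by
  obtain ⟨w, hw⟩ := mem_scal.1 hx
  have hwm : ι w ∈ maximalIdeal C := by
    have := add_mem (hK hw) hm
    rwa [sub_add_cancel] at this
  obtain ⟨d, hd⟩ := hι w hwm
  have := sub_mem (hd ▸ K.mul_mem_right d h2 : ι w ∈ K) hw
  rwa [sub_sub_cancel] at this

variable (hres : ∀ x, ∃ w, x - ι w ∈ maximalIdeal C)

include hι hres in
/-- Congruence to constants may be divided by units. -/
lemma scal_div (hK : K ≤ maximalIdeal C) (h2 : (2 : C) ∈ K) {y x : C}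
    (hy : y ∉ maximalIdeal C) (hys : y ∈ scal ι K) (hyx : y * x ∈ scal ι K) : x ∈ scal ι K := by
  obtain ⟨w, hw⟩ := hres x
  have h1 : y * (x - ι w) ∈ scal ι K := by
    rw [mul_sub]; exact sub_mem hyx (mul_mem hys (const_mem_scal ι K w))
  have h3 := mem_of_scal_of_mem hι hK h2 h1 (Ideal.mul_mem_left _ y hw)
  obtain ⟨y', hy'⟩ := (notMem_maximalIdeal.1 hy).exists_left_inv
  refine mem_scal.2 ⟨w, ?_⟩
  have h4 := K.mul_mem_left y' h3
  rw [← mul_assoc, hy', one_mul] at h4
  rw [← neg_sub]
  exact K.neg_mem h4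

include hι in
/-- If everything is congruent to a constant then the parameters generate. -/
lemma maximalIdeal_eq_of_scal [IsNoetherianRing C] {a b : C} (ha : a ∈ maximalIdeal C)
    (hb : b ∈ maximalIdeal C)
    (h2 : (2 : C) ∈ Ideal.span {a, b} ⊔ maximalIdeal C * maximalIdeal C)
    (hall : ∀ x, x ∈ scal ι (Ideal.span {a, b} ⊔ maximalIdeal C * maximalIdeal C)) :
    maximalIdeal C = Ideal.span {a, b} := by
  have hJ : Ideal.span {a, b} ≤ maximalIdeal C := by
    rw [Ideal.span_le]; rintro x (rfl | rfl)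
    exacts [ha, hb]
  refine le_antisymm (Submodule.le_of_le_smul_of_le_jacobson_bot
    (I := maximalIdeal C) (IsNoetherian.noetherian _) (IsLocalRing.maximalIdeal_le_jacobson _)
    fun x hx => ?_) hJ
  have := mem_of_scal_of_mem hι (sup_le hJ Ideal.mul_le_left) h2 (hall x) hx
  rwa [smul_eq_mul]

section Formal

variable {T z u z' u' : C} (h : IsDouble T z u z' u') (h2 : (2 : C) ∈ maximalIdeal C)

include h h2 in
/-- Near the origin the double is divisible by the point, and the abscissa by its square. -/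
lemma formal_step (hz : z ∈ maximalIdeal C) :
    (∃ c, z' = z * c) ∧ u ∈ maximalIdeal C * maximalIdeal C := by
  set f := residue C
  have hfz : f z = 0 := residue_eq_zero_iff _ |>.2 hz
  have hY : IsUnit (twoY T z u) := by
    rw [← residue_ne_zero_iff_isUnit, map_twoY, hfz]
    simp only [twoY, twoX, twoL, twoD, twoR]
    ring_nf
    exact one_ne_zero
  have hr : IsUnit (twoR T z u) := by
    rw [← residue_ne_zero_iff_isUnit, map_twoR, hfz]
    simp [twoR]
  obtain ⟨y, hy⟩ := hY.exists_left_inv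
  obtain ⟨s, hs⟩ := hr.exists_left_inv
  refine ⟨⟨-(y * twoD T z u * twoX T z u), ?_⟩, ?_⟩
  · linear_combination -z' * hy + y * h.double_z
  · rw [show u = s * (z * z) by linear_combination -u * hs + s * h.curve]
    exact Ideal.mul_mem_left _ _ (Ideal.mul_mem_mul hz hz)

include h h2 in
/-- Away from the origin the denominators are units. -/
lemma etale_step (hz' : z' ∉ maximalIdeal C) (hu' : u' ∉ maximalIdeal C) :
    z ∉ maximalIdeal C ∧ u ∉ maximalIdeal C ∧ twoX T z u ∉ maximalIdeal C ∧
      twoY T z u ∉ maximalIdeal C ∧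
      3 * T * u + (T ^ 3 - 1) * u ^ 2 ∉ maximalIdeal C := by
  have hP : (maximalIdeal C).IsPrime := inferInstance
  have hz : z ∉ maximalIdeal C := fun hz => by
    obtain ⟨⟨c, hc⟩, -⟩ := formal_step h h2 hz
    exact hz' (hc ▸ Ideal.mul_mem_right _ _ hz)
  have hu : u ∉ maximalIdeal C := fun hu => hz (hP.mem_of_pow_mem 2
    (h.curve ▸ Ideal.mul_mem_right _ _ hu))
  set f := residue C
  have e2 : (2 : ResidueField C) = 0 := by
    rw [← map_ofNat f]; exact residue_eq_zero_iff _ |>.2 h2
  have hcv : f u * twoR (f T) (f z) (f u) = f z ^ 2 := (h.map f).curve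
  have hX : twoX T z u ∉ maximalIdeal C := fun hX => by
    have hd : twoD T z u ∈ maximalIdeal C :=
      ((hP.mem_or_mem (hP.mem_of_pow_mem 2 (h.double_u ▸ Ideal.mul_mem_left _ u' hX :
        (z * twoD T z u) ^ 2 ∈ maximalIdeal C))).resolve_left hz)
    have ed : twoD (f T) (f z) (f u) = 0 := by
      rw [← map_twoD]; exact residue_eq_zero_iff _ |>.2 hd
    have eX : twoX (f T) (f z) (f u) = 0 := by
      rw [← map_twoX]; exact residue_eq_zero_iff _ |>.2 hX
    simp only [twoX, ed, mul_zero, zero_pow two_ne_zero, add_zero, sub_zero] at eX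
    have eL := eq_zero_of_pow_eq_zero eX
    rw [twoD] at ed
    rw [twoL] at eL
    have er : twoR (f T) (f z) (f u) = 1 := by linear_combination -ed - e2
    rw [er, mul_one] at hcv
    have etz : f T * f z = 1 := by
      rw [er] at eL
      linear_combination eL - (f T * f z + 2) * e2
    rw [twoR, hcv] at er
    have : (1 : ResidueField C) = 0 := by
      linear_combination ((f T ^ 3 - 1) * ((f T * f z) ^ 2 + f T * f z + 1) + 3 * f T ^ 3) * etz +
        f T ^ 3 * er + (2 * f T ^ 3) * e2
    exact one_ne_zero this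
  have hY : twoY T z u ∉ maximalIdeal C := fun hY => by
    have h1 : z * twoD T z u * twoX T z u ∈ maximalIdeal C := by
      rw [← neg_neg (z * twoD T z u * twoX T z u), ← h.double_z]
      exact neg_mem (Ideal.mul_mem_left _ _ hY)
    have h3 : u' * twoX T z u ∈ maximalIdeal C := by
      rw [h.double_u]
      exact Ideal.pow_mem_of_mem _ (Ideal.mul_mem_left _ _
        ((hP.mem_or_mem ((hP.mem_or_mem h1).resolve_right hX)).resolve_left hz)) 2 two_pos
    exact (hP.mem_or_mem h3).elim hu' hX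
  refine ⟨hz, hu, hX, hY, fun hB => ?_⟩
  have h1 : 3 * T + (T ^ 3 - 1) * u ∈ maximalIdeal C :=
    (hP.mem_or_mem (x := u) (by rw [show u * (3 * T + (T ^ 3 - 1) * u) =
      3 * T * u + (T ^ 3 - 1) * u ^ 2 by ring]; exact hB)).resolve_left hu
  have hd : twoD T z u ∈ maximalIdeal C := by
    rw [show twoD T z u = (3 * T + (T ^ 3 - 1) * u) * z - 2 by simp [twoD, twoR]; ring]
    exact sub_mem (Ideal.mul_mem_right _ _ h1) h2
  have h3 : u' * twoX T z u ∈ maximalIdeal C := by
    rw [h.double_u]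
    exact Ideal.pow_mem_of_mem _ (Ideal.mul_mem_left _ _ hd) 2 two_pos
  exact (hP.mem_or_mem h3).elim hu' hX

include h hι hres in
/-- The coordinates of the double are congruent to constants if those of the point are. -/
lemma scal_step (hK : K ≤ maximalIdeal C) (hK2 : (2 : C) ∈ K)
    (hX : twoX T z u ∉ maximalIdeal C) (hY : twoY T z u ∉ maximalIdeal C) (hT : T ∈ scal ι K)
    (hz : z ∈ scal ι K) (hu : u ∈ scal ι K) : z' ∈ scal ι K ∧ u' ∈ scal ι K := by
  let Tₛ : scal ι K := ⟨T, hT⟩
  let zₛ : scal ι K := ⟨z, hz⟩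
  let uₛ : scal ι K := ⟨u, hu⟩
  let g := (scal ι K).subtype
  have hd : twoD T z u ∈ scal ι K := map_twoD g Tₛ zₛ uₛ ▸ (twoD Tₛ zₛ uₛ).2
  have hXs : twoX T z u ∈ scal ι K := map_twoX g Tₛ zₛ uₛ ▸ (twoX Tₛ zₛ uₛ).2
  have hYs : twoY T z u ∈ scal ι K := map_twoY g Tₛ zₛ uₛ ▸ (twoY Tₛ zₛ uₛ).2
  constructor
  · refine scal_div hι hres hK hK2 hY hYs ?_
    rw [mul_comm, h.double_z]
    exact neg_mem (mul_mem (mul_mem hz hd) hXs)
  · refine scal_div hι hres hK hK2 hX hXs ?_
    rw [mul_comm, h.double_u]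
    exact pow_mem (mul_mem hz hd) 2

end Formal

/-- Two chains of halves over the points of order two with parameters `u` and `v`. -/
structure Chains (T : C) (k : ℕ) (zP uP zQ uQ : ℕ → C) : Prop where
  stepP : ∀ i < k, IsDouble T (zP (i + 1)) (uP (i + 1)) (zP i) (uP i)
  stepQ : ∀ i < k, IsDouble T (zQ (i + 1)) (uQ (i + 1)) (zQ i) (uQ i)
  sum : (T ^ 3 - 1) * (zP 1 ^ 2 + zP 1 * zQ 1 + zQ 1 ^ 2) = 3 * T
  prod : (T ^ 3 - 1) * (zP 1 * zQ 1 * (zP 1 + zQ 1)) = 2
  uP_zero : uP 0 = 0
  uQ_zero : uQ 0 = 0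
  zP_zero : zP 0 = 0
  zQ_zero : zQ 0 = 0

lemma formal_chain {T : C} {k : ℕ} {z u : ℕ → C} (h2 : (2 : C) ∈ maximalIdeal C)
    (hs : ∀ i < k, IsDouble T (z (i + 1)) (u (i + 1)) (z i) (u i)) (h0 : u 0 = 0)
    (hk : z k ∈ maximalIdeal C) : ∀ i ≤ k, z i ∈ Ideal.span {z k} ∧
      u i ∈ maximalIdeal C * maximalIdeal C := by
  have key : ∀ j ≤ k, z (k - j) ∈ Ideal.span {z k} := by
    intro j
    induction j with
    | zero => exact fun _ => Ideal.subset_span rfl
    | succ j ih =>
      intro hj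
      have hm : z (k - j) ∈ maximalIdeal C :=
        (Ideal.span_singleton_le_iff_mem _).2 hk (ih (by omega))
      have := hs (k - (j + 1)) (by omega)
      rw [show k - (j + 1) + 1 = k - j by omega] at this
      obtain ⟨⟨c, hc⟩, -⟩ := formal_step this h2 hm
      rw [hc]
      exact Ideal.mul_mem_right _ _ (ih (by omega))
  intro i hi
  have hzi : z i ∈ Ideal.span {z k} := by
    have := key (k - i) (Nat.sub_le _ _)
    rwa [show k - (k - i) = i by omega] at this
  refine ⟨hzi, ?_⟩
  rcases i with _ | i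
  · rw [h0]; exact zero_mem _
  · exact (formal_step (hs i (by omega)) h2 ((Ideal.span_singleton_le_iff_mem _).2 hk hzi)).2

lemma etale_chain {T : C} {k : ℕ} {z u : ℕ → C} (h2 : (2 : C) ∈ maximalIdeal C)
    (hs : ∀ i < k, IsDouble T (z (i + 1)) (u (i + 1)) (z i) (u i))
    (h1 : z 1 ∉ maximalIdeal C) :
    ∀ i, 1 ≤ i → i ≤ k → z i ∉ maximalIdeal C ∧ u i ∉ maximalIdeal C := by
  intro i hi
  induction i, hi using Nat.le_induction with
  | base =>
    intro hk
    refine ⟨h1, fun hu => h1 ?_⟩
    exact (inferInstance : (maximalIdeal C).IsPrime).mem_of_pow_mem 2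
      ((hs 0 (by omega)).curve ▸ Ideal.mul_mem_right _ _ hu)
  | succ i hi ih =>
    intro hk
    obtain ⟨a, b, -⟩ := etale_step (hs i (by omega)) h2 (ih (by omega)).1 (ih (by omega)).2
    exact ⟨a, b⟩

include hι hres in
/-- The parameters: at a supersingular point the two formal coordinates, at an ordinary point the
formal coordinate and the abscissa of the etale point. -/
theorem exists_parameters {T : C} {k : ℕ} (hk : 2 ≤ k) {zP uP zQ uQ : ℕ → C}
    (h2 : (2 : C) ∈ maximalIdeal C) (hA : T ^ 3 - 1 ∉ maximalIdeal C)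
    (H : Chains T k zP uP zQ uQ) (hP : zP k ∈ maximalIdeal C)
    (hQ : zQ 1 ∈ maximalIdeal C → zQ k ∈ maximalIdeal C) :
    ∃ a b : C, a ∈ maximalIdeal C ∧ b ∈ maximalIdeal C ∧
      (2 : C) ∈ Ideal.span {a, b} ⊔ maximalIdeal C * maximalIdeal C ∧
      T ∈ scal ι (Ideal.span {a, b} ⊔ maximalIdeal C * maximalIdeal C) ∧
      ∀ i ≤ k,
        zP i ∈ scal ι (Ideal.span {a, b} ⊔ maximalIdeal C * maximalIdeal C) ∧
        uP i ∈ scal ι (Ideal.span {a, b} ⊔ maximalIdeal C * maximalIdeal C) ∧
        zQ i ∈ scal ι (Ideal.span {a, b} ⊔ maximalIdeal C * maximalIdeal C) ∧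
        uQ i ∈ scal ι (Ideal.span {a, b} ⊔ maximalIdeal C * maximalIdeal C) := by
  set m := maximalIdeal C with hm
  have hmP : m.IsPrime := inferInstance
  have hPc := formal_chain h2 H.stepP H.uP_zero hP
  have hP1 := (hPc 1 (by omega)).1
  have h2P : (2 : C) ∈ Ideal.span {zP k} := by
    rw [← H.prod]
    exact Ideal.mul_mem_left _ _ (Ideal.mul_mem_right _ _ (Ideal.mul_mem_right _ _ hP1))
  by_cases hq : zQ 1 ∈ m
  · -- supersingular
    have hQc := formal_chain h2 H.stepQ H.uQ_zero (hQ hq)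
    refine ⟨zP k, zQ k, hP, hQ hq, ?_⟩
    set K := Ideal.span {zP k, zQ k} ⊔ m * m with hKdef
    have hPK : Ideal.span {zP k} ≤ K := (Ideal.span_mono (by simp)).trans le_sup_left
    have hQK : Ideal.span {zQ k} ≤ K := (Ideal.span_mono (by simp)).trans le_sup_left
    have hT : T ∈ K := by
      have h3 : 3 * T ∈ K := by
        rw [← H.sum]
        refine Ideal.mul_mem_left _ _ ?_
        rw [sq, sq]
        exact add_mem (add_mem (K.mul_mem_left _ (hPK hP1)) (K.mul_mem_right _ (hPK hP1)))
          (K.mul_mem_left _ (hQK (hQc 1 (by omega)).1))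
      rw [show T = 3 * T - 2 * T by ring]
      exact sub_mem h3 (K.mul_mem_right _ (hPK h2P))
    exact ⟨hPK h2P, mem_scal_of_mem hT, fun i hi =>
      ⟨mem_scal_of_mem (hPK (hPc i hi).1), mem_scal_of_mem ((le_sup_right : m * m ≤ K) (hPc i hi).2),
        mem_scal_of_mem (hQK (hQc i hi).1), mem_scal_of_mem ((le_sup_right : m * m ≤ K) (hQc i hi).2)⟩⟩
  · -- ordinary
    have hQc := etale_chain h2 H.stepQ hq
    obtain ⟨a, ha⟩ := hres (uQ k)
    refine ⟨zP k, uQ k - ι a, hP, ha, ?_⟩
    set K := Ideal.span {zP k, uQ k - ι a} ⊔ m * m with hKdef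
    have hKm : K ≤ m := sup_le (Ideal.span_le.2 (by rintro x (rfl | rfl); exacts [hP, ha]))
      Ideal.mul_le_left
    have hPK : Ideal.span {zP k} ≤ K := (Ideal.span_mono (by simp)).trans le_sup_left
    have h2K : (2 : C) ∈ K := hPK h2P
    have huk : uQ k ∈ scal ι K := by
      refine mem_scal.2 ⟨a, ?_⟩
      rw [← neg_sub]
      exact K.neg_mem ((le_sup_left : Ideal.span {zP k, uQ k - ι a} ≤ K) (Ideal.subset_span (Or.inr rfl)))
    -- the parameter of the base
    obtain ⟨c, hc⟩ := hres T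
    obtain ⟨ρ, hρ⟩ := hres (zQ 1)
    set u := zP 1
    set v := zQ 1
    have hum : u ∈ m := (Ideal.span_singleton_le_iff_mem _).2 hP hP1
    set D := 3 - ι ρ ^ 2 * (T ^ 2 + T * ι c + ι c ^ 2) with hDdef
    have hD : D ∉ m := by
      intro hD
      set f := residue C
      have e2 : (2 : ResidueField C) = 0 := by
        rw [← map_ofNat f]; exact residue_eq_zero_iff _ |>.2 h2
      have eD : f D = 0 := residue_eq_zero_iff _ |>.2 hD
      have ec : f (ι c) = f T := (sub_eq_zero.1 (by
        rw [← map_sub]; exact residue_eq_zero_iff _ |>.2 hc)).symm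
      have eρ : f (ι ρ) = f (zQ 1) := (sub_eq_zero.1 (by
        rw [← map_sub]; exact residue_eq_zero_iff _ |>.2 hρ)).symm
      have eu : f (zP 1) = 0 := residue_eq_zero_iff _ |>.2 hum
      have es := congrArg f H.sum
      simp only [hDdef, map_sub, map_add, map_mul, map_pow, map_ofNat, map_one, ec, eρ, eu,
        mul_zero, zero_mul, zero_pow two_ne_zero, zero_add] at eD es
      have : (1 : ResidueField C) = 0 := by
        linear_combination (f T ^ 3 - 1) * eD + (3 * f T ^ 2) * es + (2 + 3 * f T ^ 3) * e2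
      exact one_ne_zero this
    have hTs : T ∈ scal ι K := by
      have key : D * (T - ι c) = (T ^ 3 - 1) * (u + v) * u + (T ^ 3 - 1) * ((v - ι ρ) * (v - ι ρ)) +
          2 * (ι ρ * (T ^ 3 - 1) * (v - ι ρ)) - ι (3 * c - (c ^ 3 - 1) * ρ ^ 2) := by
        simp only [hDdef, map_sub, map_mul, map_pow, map_one, map_ofNat]
        linear_combination -H.sum
      have hG : ι (3 * c - (c ^ 3 - 1) * ρ ^ 2) ∈ m := by
        rw [show ι (3 * c - (c ^ 3 - 1) * ρ ^ 2) = (T ^ 3 - 1) * (u + v) * u +
          (T ^ 3 - 1) * ((v - ι ρ) * (v - ι ρ)) + 2 * (ι ρ * (T ^ 3 - 1) * (v - ι ρ)) -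
            D * (T - ι c) by linear_combination key]
        exact sub_mem (add_mem (add_mem (m.mul_mem_left _ hum)
          (m.mul_mem_left _ (m.mul_mem_left _ hρ))) (m.mul_mem_right _ h2)) (m.mul_mem_left _ hc)
      obtain ⟨d, hd⟩ := hι _ hG
      have h3 : D * (T - ι c) ∈ K := by
        rw [key, hd]
        refine sub_mem (add_mem (add_mem (K.mul_mem_left _ (hPK hP1)) (K.mul_mem_left _ ?_))
          (K.mul_mem_right _ h2K)) (K.mul_mem_right _ h2K)
        exact (le_sup_right : m * m ≤ K) (Ideal.mul_mem_mul hρ hρ)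
      refine mem_scal.2 ⟨c, ?_⟩
      rw [← neg_sub]
      exact K.neg_mem ((Ideal.unit_mul_mem_iff_mem _ (notMem_maximalIdeal.1 hD)).1 h3)
    -- the top of the etale chain
    have htop := H.stepQ (k - 1) (by omega)
    rw [show k - 1 + 1 = k by omega] at htop
    obtain ⟨hzk, -, -, -, hB⟩ := etale_step htop h2 (hQc (k - 1) (by omega) (by omega)).1
      (hQc (k - 1) (by omega) (by omega)).2
    set B := 3 * T * uQ k + (T ^ 3 - 1) * uQ k ^ 2 with hBdef
    have hBs : B ∈ scal ι K := by
      have h3 : (3 : C) ∈ scal ι K := by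
        rw [← map_ofNat ι 3]; exact const_mem_scal ι K 3
      exact add_mem (mul_mem (mul_mem h3 hTs) huk)
        (mul_mem (sub_mem (pow_mem hTs 3) (one_mem _)) (pow_mem huk 2))
    obtain ⟨b, hb⟩ := hres (zQ k)
    have hzs : zQ k ∈ scal ι K := by
      have key : (zQ k + ι b + B) * (zQ k - ι b) = uQ k - (ι b ^ 2 + B * ι b) := by
        have := htop.curve
        simp only [twoR] at this
        simp only [hBdef]
        linear_combination -this
      have h3 : (zQ k + ι b + B) * (zQ k - ι b) ∈ K := by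
        refine mem_of_scal_of_mem hι hKm h2K ?_ (m.mul_mem_left _ hb)
        rw [key]
        exact sub_mem huk (add_mem (pow_mem (const_mem_scal ι K b) 2)
          (mul_mem hBs (const_mem_scal ι K b)))
      have hu : zQ k + ι b + B ∉ m := fun hu => hB (by
        rw [show B = (zQ k + ι b + B) + (zQ k - ι b) - 2 * zQ k by ring]
        exact sub_mem (add_mem hu hb) (m.mul_mem_right _ h2))
      refine mem_scal.2 ⟨b, ?_⟩
      rw [← neg_sub]
      exact K.neg_mem ((Ideal.unit_mul_mem_iff_mem _ (notMem_maximalIdeal.1 hu)).1 h3)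
    have hdown : ∀ j, j < k → zQ (k - j) ∈ scal ι K ∧ uQ (k - j) ∈ scal ι K := by
      intro j
      induction j with
      | zero => exact fun _ => ⟨hzs, huk⟩
      | succ j ih =>
        intro hj
        have hs := H.stepQ (k - (j + 1)) (by omega)
        rw [show k - (j + 1) + 1 = k - j by omega] at hs
        obtain ⟨-, -, hX, hY, -⟩ := etale_step hs h2 (hQc _ (by omega) (by omega)).1
          (hQc _ (by omega) (by omega)).2
        exact scal_step hι hres hs hKm h2K hX hY hTs (ih (by omega)).1 (ih (by omega)).2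
    refine ⟨h2K, hTs, fun i hi => ⟨mem_scal_of_mem (hPK (hPc i hi).1),
      mem_scal_of_mem ((le_sup_right : m * m ≤ K) (hPc i hi).2), ?_⟩⟩
    rcases i with _ | i
    · rw [H.zQ_zero, H.uQ_zero]; exact ⟨zero_mem _, zero_mem _⟩
    · have := hdown (k - (i + 1)) (by omega)
      rwa [show k - (k - (i + 1)) = i + 1 by omega] at this

end Fermat.Agent.Carayol
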